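import Fermat.Agent.Lowering.P5.Support

/-!
# Passing to the limit

Compatible level data exist by compactness, and they give patched modules.
-/

set_option autoImplicit false
set_option linter.style.haveILetI false

noncomputable section

open IsLocalRing CategoryTheory Opposite

namespace FLTAgent.Lowering.P5

/-- Submodules of finite modules over a Noetherian local ring are closed. -/
theorem mem_of_forall_mem_sup {R M : Type*} [CommRing R] [IsNoetherianRing R] [IsLocalRing R]
    [AddCommGroup M] [Module R M] [Module.Finite R M] (N : Submodule R M) (x : M)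
    (h : ∀ n, x ∈ N ⊔ maximalIdeal R ^ n • (⊤ : Submodule R M)) : x ∈ N := by
  have : IsHausdorff (maximalIdeal R) (M ⧸ N) := inferInstance
  rw [← Submodule.Quotient.mk_eq_zero]
  refine IsHausdorff.haus (I := maximalIdeal R) inferInstance _ fun n => ?_
  obtain ⟨a, ha, b, hb, rfl⟩ := Submodule.mem_sup.1 (h n)
  rw [SModEq.zero, Submodule.Quotient.mk_add, (Submodule.Quotient.mk_eq_zero N).2 ha, zero_add]
  have h1 := Submodule.mem_map_of_mem (f := N.mkQ) hb
  rw [Submodule.map_smul'', Submodule.map_top, Submodule.range_mkQ] at h1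
  exact h1

variable {O : Type} [CommRing O] [IsDomain O] [IsDiscreteValuationRing O] [Finite (ResidueField O)]

theorem finite_residueField_mvPowerSeries (σ : Type) :
    Finite (ResidueField (MvPowerSeries σ O)) := by
  refine Finite.of_surjective (fun a : ResidueField O =>
    residue (MvPowerSeries σ O) (MvPowerSeries.C (Function.surjInv residue_surjective a))) fun b => ?_
  obtain ⟨f, rfl⟩ := residue_surjective b
  refine ⟨residue O (MvPowerSeries.constantCoeff f), ?_⟩
  refine (Ideal.Quotient.eq).2 ?_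
  rw [mem_maximalIdeal, mem_nonunits_iff, MvPowerSeries.isUnit_iff_constantCoeff, map_sub,
    MvPowerSeries.constantCoeff_C, ← mem_nonunits_iff, ← mem_maximalIdeal,
    ← residue_eq_zero_iff, map_sub, Function.surjInv_eq residue_surjective, sub_self]

theorem finite_quotient_pow_maximalIdeal (σ : Type) [Finite σ] (m : ℕ) :
    Finite (MvPowerSeries σ O ⧸ maximalIdeal (MvPowerSeries σ O) ^ m) := by
  have := finite_residueField_mvPowerSeries (O := O) σ
  exact IsLocalRing.finite_quotient_iff.2 ⟨m, le_rfl⟩

theorem exists_pow_le_ker {σ A : Type} [Finite σ] [Ring A] [Algebra O A] [Finite A]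
    (f : MvPowerSeries σ O →ₐ[O] A) :
    ∃ n, maximalIdeal (MvPowerSeries σ O) ^ n ≤ RingHom.ker f := by
  have := finite_residueField_mvPowerSeries (O := O) σ
  refine IsLocalRing.finite_quotient_iff.1 ?_
  exact Finite.of_injective _ (RingHom.kerLift_injective f.toRingHom)

/-- A map to a finite algebra is determined by the images of the variables. -/
theorem algHom_eq_of_X {σ A : Type} [Finite σ] [Ring A] [Algebra O A] [Finite A]
    (f g : MvPowerSeries σ O →ₐ[O] A)
    (h : ∀ i, f (MvPowerSeries.X i) = g (MvPowerSeries.X i)) : f = g := by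
  have := Fintype.ofFinite σ
  obtain ⟨n, hn⟩ := exists_pow_le_ker f
  obtain ⟨n', hn'⟩ := exists_pow_le_ker g
  obtain ⟨F', -, hsub, hF'⟩ := exists_span_sup_pow (R := O) (MvPowerSeries.X : σ → MvPowerSeries σ O)
    (F := {1}) (Set.finite_singleton 1) (fun x => ⟨MvPowerSeries.C (MvPowerSeries.constantCoeff x),
      Submodule.mem_span_singleton.2 ⟨MvPowerSeries.constantCoeff x, by
        rw [Algebra.smul_def, mul_one]; rfl⟩, sub_C_constantCoeff_mem_span_X x⟩) (n + n')
  refine AlgHom.ext fun x => ?_
  obtain ⟨a, ha, hxa⟩ := hF' x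
  have hle : Ideal.span (Set.range (MvPowerSeries.X : σ → MvPowerSeries σ O)) ^ (n + n') ≤
      maximalIdeal (MvPowerSeries σ O) ^ (n + n') := by
    refine Ideal.pow_right_mono (Ideal.span_le.2 ?_) _
    rintro _ ⟨i, rfl⟩
    rw [SetLike.mem_coe, mem_maximalIdeal, mem_nonunits_iff, MvPowerSeries.isUnit_iff_constantCoeff]
    simp
  have h1 : f (x - a) = 0 := hn (Ideal.pow_le_pow_right (Nat.le_add_right n n') (hle hxa))
  have h2 : g (x - a) = 0 := hn' (Ideal.pow_le_pow_right (Nat.le_add_left n' n) (hle hxa))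
  have h3 : f a = g a := by
    have ha' : a ∈ Algebra.adjoin O ({1} ∪ Set.range (MvPowerSeries.X : σ → MvPowerSeries σ O)) :=
      (Submodule.span_le (p := Subalgebra.toSubmodule
        (Algebra.adjoin O ({1} ∪ Set.range (MvPowerSeries.X : σ → MvPowerSeries σ O))))).2 hsub ha
    refine (Algebra.adjoin_le (S := AlgHom.equalizer f g) ?_ ha' : _)
    rintro _ (rfl | ⟨i, rfl⟩)
    · exact (map_one f).trans (map_one g).symm
    · exact h i
  rw [map_sub, sub_eq_zero] at h1 h2
  rw [h1, h2, h3]

namespace Params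

variable (P : Params O)

/-- Reduction between powers. -/
def step {m n : ℕ} (h : m ≤ n) : P.CoefMod n →ₐ[O] P.CoefMod m :=
  Ideal.Quotient.factorₐ O (Ideal.pow_le_pow_right h)

@[simp]
theorem step_mk {m n : ℕ} (h : m ≤ n) (x : P.Coef) :
    P.step h (Ideal.Quotient.mk _ x) = Ideal.Quotient.mk _ x := rfl

theorem step_algebraMap {m n : ℕ} (h : m ≤ n) (x : P.CoefMod n) :
    (algebraMap (P.CoefMod n) (Matrix (Fin P.d) (Fin P.d) (P.CoefMod n)) x).map (P.step h) =
      algebraMap (P.CoefMod m) _ (P.step h x) := by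
  ext i j
  simp only [Matrix.map_apply, Matrix.algebraMap_matrix_apply, Algebra.algebraMap_self,
    RingHom.id_apply]
  split_ifs <;> simp

theorem toBase_mk (m : ℕ) (x : P.Coef) :
    P.toBase m (Ideal.Quotient.mk _ x) = Ideal.Quotient.mk _ (MvPowerSeries.constantCoeff x) := rfl

/-- The actions of a level and the classes of the elements attached to the variables. -/
abbrev StateType (m : ℕ) : Type :=
  (Bool → Loc O P.k P.g →ₐ[O] Matrix (Fin P.d) (Fin P.d) (P.CoefMod m)) ×
    (Fin P.s → Loc O P.k P.g ⧸ maximalIdeal (Loc O P.k P.g) ^ m)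

/-- States coming from a level. -/
def State (m : ℕ) : Type :=
  {x : P.StateType m // ∃ L : P.Level m, x.1 = L.act ∧ ∀ j, x.2 j = Ideal.Quotient.mk _ (L.ξ j)}

instance (m : ℕ) : Finite (P.CoefMod m) := finite_quotient_pow_maximalIdeal _ m

instance (m : ℕ) : Finite (P.State m) := by
  have := finite_quotient_pow_maximalIdeal (O := O) (LocVar P.k P.g) m
  have : Finite (Loc O P.k P.g →ₐ[O] Matrix (Fin P.d) (Fin P.d) (P.CoefMod m)) :=
    Finite.of_injective (fun f i => f (MvPowerSeries.X i))
      fun f g h => algHom_eq_of_X f g (congrFun h)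
  unfold State
  infer_instance

/-- A level restricted to a smaller power. -/
def Level.restrict {P : Params O} {m n : ℕ} (h : m ≤ n) (L : P.Level n) : P.Level m where
  act e := (P.step h).mapMatrix.comp (L.act e)
  congr x i j := by
    simp only [AlgHom.comp_apply, AlgHom.mapMatrix_apply, Matrix.map_apply, ← map_sub]
    have h1 := Ideal.mem_map_of_mem (P.step h) (L.congr x i j)
    rw [← Ideal.map_coe, Ideal.map_map, AlgHom.comp_algebraMap] at h1
    exact h1
  minor_rel t i j := by rw [AlgHom.comp_apply, ← map_pow, L.minor_rel, map_zero]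
  curve_rel t := by rw [AlgHom.comp_apply, ← map_pow, L.curve_rel, map_zero]
  plain_rel t i := by rw [AlgHom.comp_apply, ← map_pow, L.plain_rel, map_zero]
  ξ := L.ξ
  ξ_mem := L.ξ_mem
  ξ_rel e j := by
    have := congrArg (P.step h).mapMatrix (L.ξ_rel e j)
    rw [map_pow, map_sub, map_zero, AlgHom.mapMatrix_apply (M := algebraMap _ _ _),
      P.step_algebraMap, P.step_mk] at this
    exact this
  base x := by
    obtain ⟨a, ha, ha'⟩ := L.base x
    refine ⟨a, ha, fun i j => ?_⟩
    obtain ⟨y, hy⟩ := Ideal.Quotient.mk_surjective (L.act false x i j)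
    have := ha' i j
    rw [← hy, P.toBase_mk, Ideal.Quotient.eq] at this
    show P.toBase m (P.step h (L.act false x i j)) = _
    rw [← hy, P.step_mk, P.toBase_mk, Ideal.Quotient.eq]
    exact Ideal.pow_le_pow_right h this
  base_X t l i j := by
    obtain ⟨y, hy⟩ := Ideal.Quotient.mk_surjective (L.act false (Xc t l) i j)
    have := L.base_X t l i j
    rw [← hy, P.toBase_mk, Ideal.Quotient.eq] at this
    show P.toBase m (P.step h (L.act false (Xc t l) i j)) = _
    rw [← hy, P.step_mk, P.toBase_mk, Ideal.Quotient.eq]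
    exact Ideal.pow_le_pow_right h this

/-- Transition of states. -/
def State.restrict {P : Params O} {m n : ℕ} (h : m ≤ n) (x : P.State n) : P.State m :=
  ⟨(fun e => (P.step h).mapMatrix.comp (x.1.1 e),
    fun j => Ideal.Quotient.factor (Ideal.pow_le_pow_right h) (x.1.2 j)), by
    obtain ⟨L, h1, h2⟩ := x.2
    refine ⟨L.restrict h, ?_, fun j => ?_⟩
    · show (fun e => (P.step h).mapMatrix.comp (x.1.1 e)) = _
      rw [h1]; rfl
    · show Ideal.Quotient.factor _ (x.1.2 j) = _
      rw [h2]; rfl⟩

theorem exists_compatible_states (hP : ∀ m, Nonempty (P.Level m)) :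
    ∃ x : ∀ m, P.State m, ∀ m n (h : m ≤ n), (x n).restrict h = x m := by
  let F : ℕᵒᵖ ⥤ Type :=
    { obj := fun m => P.State m.unop
      map := fun {a b} f => TypeCat.ofHom fun x => x.restrict (leOfHom f.unop)
      map_id := fun a => by
        ext x
        refine Subtype.ext (Prod.ext (funext fun e => AlgHom.ext fun y => ?_) (funext fun j => ?_))
        · ext i l
          obtain ⟨z, hz⟩ := Ideal.Quotient.mk_surjective (x.1.1 e y i l)
          show P.step le_rfl (x.1.1 e y i l) = x.1.1 e y i l
          rw [← hz]; rfl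
        · obtain ⟨z, hz⟩ := Ideal.Quotient.mk_surjective (x.1.2 j)
          show Ideal.Quotient.factor _ (x.1.2 j) = x.1.2 j
          rw [← hz]; rfl
      map_comp := fun {a b c} f g => by
        ext x
        refine Subtype.ext (Prod.ext (funext fun e => AlgHom.ext fun y => ?_) (funext fun j => ?_))
        · ext i l
          obtain ⟨z, hz⟩ := Ideal.Quotient.mk_surjective (x.1.1 e y i l)
          show P.step (leOfHom (g.unop ≫ f.unop)) (x.1.1 e y i l) =
            P.step (leOfHom g.unop) (P.step (leOfHom f.unop) (x.1.1 e y i l))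
          rw [← hz]; rfl
        · obtain ⟨z, hz⟩ := Ideal.Quotient.mk_surjective (x.1.2 j)
          show Ideal.Quotient.factor _ (x.1.2 j) = Ideal.Quotient.factor _ (Ideal.Quotient.factor _ (x.1.2 j))
          rw [← hz]; rfl }
  have : ∀ m, Finite (F.obj m) := fun m => inferInstanceAs (Finite (P.State m.unop))
  have : ∀ m, Nonempty (F.obj m) := fun m =>
    (hP m.unop).map fun L => ⟨(L.act, fun j => Ideal.Quotient.mk _ (L.ξ j)), L, rfl, fun _ => rfl⟩
  obtain ⟨x, hx⟩ := nonempty_sections_of_finite_inverse_system F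
  exact ⟨fun m => x (op m), fun m n h => hx (homOfLE h).op⟩

/-- Patched modules exist as soon as all levels exist. -/
theorem exists_limit [IsAdicComplete (maximalIdeal O) O] (hP : ∀ m, Nonempty (P.Level m)) :
    Nonempty P.Limit := by
  obtain ⟨x, hx⟩ := P.exists_compatible_states hP
  have := isAdicComplete_mvPowerSeries_of_finite (O := O) (Fin P.s)
  have := isAdicComplete_mvPowerSeries_of_finite (O := O) (LocVar P.k P.g)
  set J := maximalIdeal P.Coef
  set I := maximalIdeal (Loc O P.k P.g)
  let a : Bool → ∀ m, Loc O P.k P.g →ₐ[O] Matrix (Fin P.d) (Fin P.d) (P.CoefMod m) :=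
    fun e m => (x m).1.1 e
  have ha : ∀ e m n (h : m ≤ n) y i j, P.step h (a e n y i j) = a e m y i j := fun e m n h y i j => by
    have := congrArg (fun s : P.State m => s.1.1 e y i j) (hx m n h)
    exact this
  have hex : ∀ e y i j, ∃ z : P.Coef, ∀ m, Ideal.Quotient.mk (J ^ m) z = a e m y i j := by
    intro e y i j
    choose z hz using fun m => Ideal.Quotient.mk_surjective (a e m y i j)
    have hcau : ∀ {m n : ℕ}, m ≤ n → z m ≡ z n [SMOD (J ^ m • ⊤ : Submodule P.Coef P.Coef)] := by
      intro m n h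
      rw [SModEq.sub_mem, smul_eq_mul, Ideal.mul_top, ← Ideal.Quotient.eq, hz, ← ha e m n h, ← hz n,
        P.step_mk]
    obtain ⟨L, hL⟩ := IsPrecomplete.prec (I := J) inferInstance hcau
    refine ⟨L, fun m => ?_⟩
    have := hL m
    rw [SModEq.sub_mem, smul_eq_mul, Ideal.mul_top, ← Ideal.Quotient.eq, hz] at this
    exact this.symm
  choose z hz using hex
  have huniq : ∀ u v : P.Coef, (∀ m, Ideal.Quotient.mk (J ^ m) u = Ideal.Quotient.mk (J ^ m) v) →
      u = v := fun u v h => sub_eq_zero.1 (IsHausdorff.haus (I := J) inferInstance _ fun m => by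
    rw [SModEq.zero, smul_eq_mul, Ideal.mul_top, ← Ideal.Quotient.eq]; exact h m)
  let M : Bool → Loc O P.k P.g → Matrix (Fin P.d) (Fin P.d) P.Coef := fun e y => Matrix.of (z e y)
  have hM : ∀ e y m, (M e y).map (Ideal.Quotient.mk (J ^ m)) = a e m y := fun e y m =>
    Matrix.ext fun i j => hz e y i j m
  have hMext : ∀ (A B : Matrix (Fin P.d) (Fin P.d) P.Coef),
      (∀ m, A.map (Ideal.Quotient.mk (J ^ m)) = B.map (Ideal.Quotient.mk (J ^ m))) → A = B :=
    fun A B h => Matrix.ext fun i j => huniq _ _ fun m => congrFun (congrFun (h m) i) j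
  let act : Bool → Loc O P.k P.g →ₐ[O] Matrix (Fin P.d) (Fin P.d) P.Coef := fun e =>
    { toFun := M e
      map_one' := hMext _ _ fun m => by
        rw [hM, map_one]
        exact (map_one (Ideal.Quotient.mk (J ^ m)).mapMatrix).symm
      map_mul' := fun u v => hMext _ _ fun m => by
        rw [hM, map_mul, ← hM e u m, ← hM e v m]
        exact (map_mul (Ideal.Quotient.mk (J ^ m)).mapMatrix _ _).symm
      map_zero' := hMext _ _ fun m => by
        rw [hM, map_zero]
        exact (map_zero (Ideal.Quotient.mk (J ^ m)).mapMatrix).symm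
      map_add' := fun u v => hMext _ _ fun m => by
        rw [hM, map_add, ← hM e u m, ← hM e v m]
        exact (map_add (Ideal.Quotient.mk (J ^ m)).mapMatrix _ _).symm
      commutes' := fun c => hMext _ _ fun m => by
        rw [hM, (a e m).commutes]
        exact ((Ideal.Quotient.mkₐ O (J ^ m)).mapMatrix.commutes c).symm }
  have hact : ∀ e y m i j, Ideal.Quotient.mk (J ^ m) (act e y i j) = a e m y i j :=
    fun e y m i j => hz e y i j m
  have hmap : ∀ e y m, (Ideal.Quotient.mk (J ^ m)).mapMatrix (act e y) = a e m y := fun e y m =>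
    hM e y m
  choose Lev hLact hLξ using fun m => (x m).2
  have haL : ∀ e m, a e m = (Lev m).act e := fun e m => congrFun (hLact m) e
  -- the elements attached to the variables
  have hξc : ∀ j, ∃ u : Loc O P.k P.g, ∀ m, (x m).1.2 j = Ideal.Quotient.mk (I ^ m) u := by
    intro j
    choose u hu using fun m => Ideal.Quotient.mk_surjective ((x m).1.2 j)
    have hcau : ∀ {m n : ℕ}, m ≤ n → u m ≡ u n [SMOD (I ^ m • ⊤ : Submodule (Loc O P.k P.g) (Loc O P.k P.g))] := by
      intro m n h
      rw [SModEq.sub_mem, smul_eq_mul, Ideal.mul_top, ← Ideal.Quotient.eq, hu]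
      have := congrArg (fun s : P.State m => s.1.2 j) (hx m n h)
      rw [← this]
      show Ideal.Quotient.factor _ ((x n).1.2 j) = _
      rw [← hu n]; rfl
    obtain ⟨L, hL⟩ := IsPrecomplete.prec (I := I) inferInstance hcau
    refine ⟨L, fun m => ?_⟩
    have := hL m
    rw [SModEq.sub_mem, smul_eq_mul, Ideal.mul_top, ← Ideal.Quotient.eq, hu] at this
    exact this
  choose ξ hξ using hξc
  refine ⟨{
    act := act
    congr := fun y i j => ?_
    minor_rel := fun t i j => hMext _ _ fun m => ?_
    curve_rel := fun t => hMext _ _ fun m => ?_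
    plain_rel := fun t i => hMext _ _ fun m => ?_
    mem := fun e y hy => ?_
    ξ := ξ
    ξ_mem := fun j => ?_
    ξ_rel := fun e j => hMext _ _ fun m => ?_
    base := fun y => ?_
    base_X := fun t l => ?_ }⟩
  · refine mem_of_forall_mem_sup _ _ fun m => ?_
    have h := (Lev m).congr y i j
    rw [← haL, ← haL, ← hact, ← hact, ← map_sub,
      IsScalarTower.algebraMap_eq O P.Coef (P.CoefMod m), ← Ideal.map_map,
      Ideal.Quotient.algebraMap_eq, Ideal.mem_map_iff_of_surjective _ Ideal.Quotient.mk_surjective] at h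
    obtain ⟨b, hb, hb'⟩ := h
    rw [smul_eq_mul, Ideal.mul_top]
    refine Submodule.mem_sup.2 ⟨b, hb, act false y i j - act true y i j - b, ?_, by ring⟩
    exact Ideal.Quotient.eq.1 hb'.symm
  · show (Ideal.Quotient.mk (J ^ m)).mapMatrix _ = (Ideal.Quotient.mk (J ^ m)).mapMatrix 0
    rw [map_pow, hmap, haL, (Lev m).minor_rel, map_zero]
  · show (Ideal.Quotient.mk (J ^ m)).mapMatrix _ = (Ideal.Quotient.mk (J ^ m)).mapMatrix 0
    rw [map_pow, hmap, haL, (Lev m).curve_rel, map_zero]
  · show (Ideal.Quotient.mk (J ^ m)).mapMatrix _ = (Ideal.Quotient.mk (J ^ m)).mapMatrix 0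
    rw [map_pow, hmap, haL, (Lev m).plain_rel, map_zero]
  · obtain ⟨N, hN⟩ := exists_pow_le_ker (a e 1)
    refine ⟨N, fun i j => ?_⟩
    have h0 : a e 1 (y ^ N) = 0 := hN (Ideal.pow_mem_pow hy N)
    show (act e y ^ N) i j ∈ J
    rw [← map_pow, ← pow_one J]
    refine Ideal.Quotient.eq_zero_iff_mem.1 ?_
    rw [hact, h0, Matrix.zero_apply]
  · have h1 := hξ j 1
    rw [hLξ, Ideal.Quotient.eq, pow_one] at h1
    simpa using sub_mem ((Lev 1).ξ_mem j) h1
  · show (Ideal.Quotient.mk (J ^ m)).mapMatrix _ = (Ideal.Quotient.mk (J ^ m)).mapMatrix 0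
    obtain ⟨N, hN⟩ := exists_pow_le_ker (a e m)
    obtain ⟨n, hn⟩ : ∃ n, n = max m N := ⟨_, rfl⟩
    have hmn : m ≤ n := hn ▸ le_max_left _ _
    have hξn : a e m (ξ j) = a e m ((Lev n).ξ j) := by
      rw [← sub_eq_zero, ← map_sub]
      refine hN (Ideal.pow_le_pow_right (m := N) (hn ▸ le_max_right _ _) ?_)
      rw [← Ideal.Quotient.eq, ← hξ, hLξ]
    have hrel := congrArg (P.step hmn).mapMatrix ((Lev n).ξ_rel e j)
    rw [map_pow, map_sub, map_zero, AlgHom.mapMatrix_apply (M := algebraMap _ _ _),
      P.step_algebraMap, P.step_mk, ← haL] at hrel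
    have hst : (P.step hmn).mapMatrix (a e n ((Lev n).ξ j)) = a e m ((Lev n).ξ j) :=
      Matrix.ext fun i l => ha e m n hmn _ i l
    rw [hst, ← hξn] at hrel
    have hC : (Ideal.Quotient.mk (J ^ m)).mapMatrix
        (algebraMap P.Coef (Matrix (Fin P.d) (Fin P.d) P.Coef) (P.w j)) =
        algebraMap (P.CoefMod m) _ (Ideal.Quotient.mk _ (P.w j)) := by
      ext i l
      rw [RingHom.mapMatrix_apply, Matrix.map_apply, Matrix.algebraMap_matrix_apply,
        Matrix.algebraMap_matrix_apply]
      split_ifs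
      · simp only [Algebra.algebraMap_self, RingHom.id_apply]; rfl
      · simp
    rw [map_pow, map_sub, hmap, hC, hrel, map_zero]
  · refine mem_of_forall_mem_sup (Subalgebra.toSubmodule P.A0) _ fun m => ?_
    obtain ⟨b, hb, hb'⟩ := (Lev m).base y
    refine Submodule.mem_sup.2 ⟨b, hb, (act false y).map MvPowerSeries.constantCoeff - b, ?_, by abel⟩
    rw [Matrix.matrix_eq_sum_single ((act false y).map MvPowerSeries.constantCoeff - b)]
    refine Submodule.sum_mem _ fun i _ => Submodule.sum_mem _ fun j _ => ?_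
    have h := hb' i j
    rw [← haL, ← hact, P.toBase_mk, Ideal.Quotient.eq] at h
    rw [Matrix.sub_apply, Matrix.map_apply, ← mul_one (_ - b i j), ← smul_eq_mul,
      ← Matrix.smul_single]
    exact Submodule.smul_mem_smul h Submodule.mem_top
  · ext i j
    refine sub_eq_zero.1 (IsHausdorff.haus (I := maximalIdeal O) inferInstance _ fun m => ?_)
    have h := (Lev m).base_X t l i j
    rw [← haL, ← hact, P.toBase_mk, Ideal.Quotient.eq] at h
    rw [SModEq.zero, smul_eq_mul, Ideal.mul_top]
    exact h

end Params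

/-- The patching theorem. -/
theorem targetPatching : TargetPatching := by
  intro O _ _ _ _ _ h2 P hP
  obtain ⟨L⟩ := P.exists_limit hP
  exact L.conclusion h2

end FLTAgent.Lowering.P5
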