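import Fermat.Agent.Lowering.P5.Sextic

/-!
# Patching at the primes to be removed: interface

`Params` fixes the shape of the patching problem, `Level` lists what one auxiliary level has to
supply modulo a power of the maximal ideal, and `Conclusion` is the resulting point of the base
algebra at which all inertia coordinates vanish.

For each `t`, `Xc t` and `Yc t` are the coordinates `(a, b, e)` of the traceless parts of the images
of a tame generator and of a Frobenius; `qf` is `a² + be`. The free variables are `Xc` and
`Uc = Yc + shift Xc`, so a map out of `Loc` sends `Uc t i` to `Y t i + shift (X t) i`.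
-/

set_option autoImplicit false

noncomputable section

open IsLocalRing

namespace FLTAgent.Lowering.P5

/-- Variables of the base of the curve. -/
abbrev BaseVar (k g : ℕ) : Type := (Fin k × Fin 3) ⊕ Fin g

/-- Variables of the local model. -/
abbrev LocVar (k g : ℕ) : Type := (Fin k × Fin 3) ⊕ BaseVar k g

section Loc

variable (O : Type) [CommRing O] (k g : ℕ)

/-- The local model with free variables. -/
abbrev Loc : Type := MvPowerSeries (LocVar k g) O

variable {O k g}

/-- The coordinates of inertia. -/
def Xc (t : Fin k) (i : Fin 3) : Loc O k g := MvPowerSeries.X (Sum.inl (t, i))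

/-- The shifted coordinates of Frobenius. -/
def Uc (t : Fin k) (i : Fin 3) : Loc O k g := MvPowerSeries.X (Sum.inr (Sum.inl (t, i)))

/-- The free generators. -/
def Gc (l : Fin g) : Loc O k g := MvPowerSeries.X (Sum.inr (Sum.inr l))

/-- The coordinates of Frobenius. -/
def Yc (t : Fin k) (i : Fin 3) : Loc O k g := Uc t i - shift (Xc t) i

/-- The commutation of inertia and Frobenius. -/
def minor (t : Fin k) (i j : Fin 3) : Loc O k g := Yc t i * Xc t j - Yc t j * Xc t i

/-- The eigenvalue relation of twisted inertia. -/
def curveRel (δ : O) (t : Fin k) : Loc O k g := qf (Xc t) - MvPowerSeries.C (δ ^ 2)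

/-- The relation of untwisted inertia and Frobenius. -/
def plainRel (c : O) (t : Fin k) (i : Fin 3) : Loc O k g :=
  (qf (Yc t) - MvPowerSeries.C c) * Xc t i

end Loc

variable (O : Type) [CommRing O] [IsDomain O] [IsDiscreteValuationRing O]

/-- The shape of a patching problem. -/
structure Params where
  /-- The number of primes to be removed. -/
  k : ℕ
  /-- The number of free generators. -/
  g : ℕ
  /-- The number of variables of the patched coefficient ring. -/
  s : ℕ
  /-- The rank of the modules. -/
  d : ℕ
  /-- A bound for nilpotency. -/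
  expo : ℕ
  s_eq : s = 3 * k + g
  d_pos : 0 < d
  δ : O
  δ_ne : δ ≠ 0
  δ_mem : δ ∈ maximalIdeal O
  cst : Fin k → O
  cst_mem : ∀ t, cst t ∈ maximalIdeal O
  /-- The elements acting through the local model. -/
  w : Fin s → MvPowerSeries (Fin s) O
  w_dvd : ∀ j, w j ∣ MvPowerSeries.X j ^ 2
  /-- The algebra acting on the base module. -/
  A0 : Subalgebra O (Matrix (Fin d) (Fin d) O)
  A0_comm : ∀ a ∈ A0, ∀ b ∈ A0, a * b = b * a
  /-- The inertia coordinates on the base module. -/
  X0 : Fin k → Fin 3 → A0

variable {O}

namespace Params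

variable (P : Params O)

/-- The patched coefficient ring. -/
abbrev Coef : Type := MvPowerSeries (Fin P.s) O

/-- Coefficients modulo a power of the maximal ideal. -/
abbrev CoefMod (m : ℕ) : Type := P.Coef ⧸ maximalIdeal P.Coef ^ m

/-- Reduction to the base, modulo the same power. -/
def toBase (m : ℕ) : P.CoefMod m →+* O ⧸ maximalIdeal O ^ m :=
  Ideal.quotientMap _ MvPowerSeries.constantCoeff <| by
    rw [← Ideal.map_le_iff_le_comap, Ideal.map_pow]
    refine Ideal.pow_right_mono (Ideal.map_le_iff_le_comap.2 fun f hf => ?_) m
    rw [Ideal.mem_comap, mem_maximalIdeal, mem_nonunits_iff]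
    rw [mem_maximalIdeal, mem_nonunits_iff, MvPowerSeries.isUnit_iff_constantCoeff] at hf
    exact hf

/-- What a level supplies modulo the `m`th power of the maximal ideal. The index `false` is the
untwisted module, `true` the twisted one. -/
structure Level (m : ℕ) where
  act : Bool → Loc O P.k P.g →ₐ[O] Matrix (Fin P.d) (Fin P.d) (P.CoefMod m)
  congr : ∀ x i j, act false x i j - act true x i j ∈
    (maximalIdeal O).map (algebraMap O (P.CoefMod m))
  minor_rel : ∀ t i j, act true (minor t i j) ^ P.expo = 0
  curve_rel : ∀ t, act true (curveRel P.δ t) ^ P.expo = 0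
  plain_rel : ∀ t i, act false (plainRel (P.cst t) t i) ^ P.expo = 0
  ξ : Fin P.s → Loc O P.k P.g
  ξ_mem : ∀ j, ξ j ∈ maximalIdeal (Loc O P.k P.g)
  ξ_rel : ∀ e j, (act e (ξ j) - algebraMap (P.CoefMod m) (Matrix (Fin P.d) (Fin P.d) (P.CoefMod m))
    (Ideal.Quotient.mk _ (P.w j))) ^ P.expo = 0
  base : ∀ x, ∃ a ∈ P.A0, ∀ i j, P.toBase m (act false x i j) = Ideal.Quotient.mk _ (a i j)
  base_X : ∀ t l i j, P.toBase m (act false (Xc t l) i j) =
    Ideal.Quotient.mk _ ((P.X0 t l : Matrix (Fin P.d) (Fin P.d) O) i j)

/-- A point of the base algebra of characteristic zero where all inertia coordinates vanish. -/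
def Conclusion : Prop :=
  ∃ (Ω : Type) (_ : Field Ω) (_ : Algebra O Ω) (f : P.A0 →ₐ[O] Ω),
    Function.Injective (algebraMap O Ω) ∧ ∀ t i, f (P.X0 t i) = 0

end Params

/-- The statement of the patching package. -/
def TargetPatching : Prop :=
  ∀ (O : Type) [CommRing O] [IsDomain O] [IsDiscreteValuationRing O]
    [IsAdicComplete (maximalIdeal O) O] [Finite (ResidueField O)] (_ : (2 : ResidueField O) ≠ 0)
    (P : Params O), (∀ m, Nonempty (P.Level m)) → P.Conclusion

end FLTAgent.Lowering.P5
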