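import Mathlib
import Fermat.Agent.Deformation.PowerSeriesComplete
import Fermat.Prelude.Thm_IsAdicComplete_of_module_finite

/-!
# Tools for the patching: spans in power series rings, finiteness, dimensions, nilpotency
-/

set_option autoImplicit false

noncomputable section

open IsLocalRing

namespace FLTAgent.Lowering.P5

/-- A series whose coefficients vanish away from the monomials meeting `s` lies in the ideal of
the variables in `s`. -/
theorem mem_span_X_of_coeff {σ A : Type*} [CommRing A] :
    ∀ (s : Finset σ) (f : MvPowerSeries σ A),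
      (∀ e : σ →₀ ℕ, (∀ i ∈ s, e i = 0) → MvPowerSeries.coeff e f = 0) →
      f ∈ Ideal.span (MvPowerSeries.X '' (s : Set σ)) := by
  classical
  intro s
  induction s using Finset.induction_on with
  | empty =>
    intro f hf
    have : f = 0 := MvPowerSeries.ext fun e => by simpa using hf e (by simp)
    simp [this]
  | @insert i s _ ih =>
    intro f hf
    let g : MvPowerSeries σ A := fun e => if e i = 0 then MvPowerSeries.coeff e f else 0
    have hg : ∀ e, MvPowerSeries.coeff e g = if e i = 0 then MvPowerSeries.coeff e f else 0 :=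
      fun e => rfl
    have h1 : g ∈ Ideal.span (MvPowerSeries.X '' ((insert i s : Finset σ) : Set σ)) := by
      refine Ideal.span_mono (Set.image_mono (by simp)) (ih g fun e he => ?_)
      rw [hg]
      split_ifs with h
      · exact hf e (Finset.forall_mem_insert _ _ _ |>.2 ⟨h, he⟩)
      · rfl
    have h2 : (MvPowerSeries.X i : MvPowerSeries σ A) ∣ f - g :=
      MvPowerSeries.X_dvd_iff.2 fun e he => by simp [map_sub, hg, he]
    obtain ⟨q, hq⟩ := h2
    rw [← sub_add_cancel f g, hq]
    exact add_mem (Ideal.mul_mem_right _ _ (Ideal.subset_span ⟨i, by simp, rfl⟩)) h1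

theorem sub_C_constantCoeff_mem_span_X {σ A : Type*} [CommRing A] [Fintype σ]
    (f : MvPowerSeries σ A) :
    f - MvPowerSeries.C (MvPowerSeries.constantCoeff f) ∈ Ideal.span (Set.range MvPowerSeries.X) := by
  rw [← Set.image_univ, ← Finset.coe_univ]
  refine mem_span_X_of_coeff _ _ fun e he => ?_
  have : e = 0 := Finsupp.ext fun i => he i (Finset.mem_univ i)
  simp [this]

section Finite

variable {R B : Type*} [CommRing R] [CommRing B] [Algebra R B]

/-- Monomials of bounded degree in generators of an ideal span a complement of its powers. -/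
theorem exists_span_sup_pow {ι : Type*} [Finite ι] (G : ι → B) {F : Set B} (hF : F.Finite)
    (h : ∀ x : B, ∃ a ∈ Submodule.span R F, x - a ∈ Ideal.span (Set.range G)) (N : ℕ) :
    ∃ F' : Set B, F'.Finite ∧ F' ⊆ Algebra.adjoin R (F ∪ Set.range G) ∧
      ∀ x : B, ∃ a ∈ Submodule.span R F', x - a ∈ Ideal.span (Set.range G) ^ N := by
  induction N with
  | zero => exact ⟨∅, Set.finite_empty, Set.empty_subset _, fun x => ⟨0, zero_mem _, by simp⟩⟩
  | succ N ih =>
    obtain ⟨F', hF', hsub, hsp⟩ := ih
    refine ⟨F ∪ Set.image2 (fun a i => a * G i) F' Set.univ,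
      hF.union (hF'.image2 _ Set.finite_univ), Set.union_subset
        (fun a ha => Algebra.subset_adjoin (Or.inl ha)) ?_, fun x => ?_⟩
    · rintro _ ⟨a, ha, i, -, rfl⟩
      exact mul_mem (hsub ha) (Algebra.subset_adjoin (Or.inr ⟨i, rfl⟩))
    · have := Fintype.ofFinite ι
      obtain ⟨a, ha, hx⟩ := h x
      obtain ⟨c, hc⟩ := (Ideal.mem_span_range_iff_exists_fun).1 hx
      choose b hb hbx using fun i => hsp (c i)
      refine ⟨a + ∑ i, b i * G i, add_mem (Submodule.span_mono Set.subset_union_left ha)
        (Submodule.sum_mem _ fun i _ => ?_), ?_⟩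
      · refine Submodule.span_mono Set.subset_union_right ?_
        have hmap : (Submodule.span R F').map (LinearMap.mulRight R (G i)) ≤
            Submodule.span R (Set.image2 (fun a i => a * G i) F' Set.univ) := by
          rw [Submodule.map_span]
          refine Submodule.span_mono ?_
          rintro _ ⟨z, hz, rfl⟩
          exact ⟨z, hz, i, trivial, rfl⟩
        exact hmap ⟨b i, hb i, rfl⟩
      · have : x - (a + ∑ i, b i * G i) = ∑ i, (c i - b i) * G i := by
          rw [← sub_sub, ← hc]
          simp [sub_mul, Finset.sum_sub_distrib]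
        rw [this, pow_succ]
        exact Submodule.sum_mem _ fun i _ =>
          Ideal.mul_mem_mul (hbx i) (Ideal.subset_span ⟨i, rfl⟩)

variable (I : Ideal R) [IsAdicComplete I R] [IsNoetherianRing R]

/-- An algebra which is spanned modulo a complete ideal by finitely many monomials in generators
nilpotent modulo that ideal is finite and generated by them. -/
theorem finite_and_adjoin_eq_top {ι : Type*} [Finite ι] (G : ι → B) {F : Set B} (hF : F.Finite)
    [IsHausdorff (I.map (algebraMap R B)) B]
    (h : ∀ x : B, ∃ a ∈ Submodule.span R F, x - a ∈ Ideal.span (Set.range G))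
    (hG : ∀ i, G i ∈ (I.map (algebraMap R B)).radical) :
    Module.Finite R B ∧ Algebra.adjoin R (F ∪ Set.range G) = ⊤ := by
  obtain ⟨N, hN⟩ := Ideal.exists_pow_le_of_le_radical_of_fg
    (Ideal.span_le.2 (Set.range_subset_iff.2 hG)) ⟨(Set.finite_range G).toFinset, by simp⟩
  obtain ⟨F', hF', hsub, hsp⟩ := exists_span_sup_pow G hF h N
  have : Fintype F' := hF'.fintype
  have : IsHausdorff I B := IsHausdorff.map_algebraMap_iff.1 ‹_›
  have : IsPrecomplete I (F' → R) := (IsAdicComplete.of_module_finite I (F' → R)).toIsPrecomplete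
  let f : (F' → R) →ₗ[R] B := Fintype.linearCombination R (fun a : F' => (a : B))
  have hf : Function.Surjective f := by
    refine surjective_of_mkQ_comp_surjective (I := I) fun y => ?_
    obtain ⟨x, rfl⟩ := Submodule.mkQ_surjective _ y
    obtain ⟨a, ha, hxa⟩ := hsp x
    have ha' : a ∈ LinearMap.range f := by
      rw [Fintype.range_linearCombination, Subtype.range_coe]
      exact ha
    obtain ⟨c, rfl⟩ := ha'
    refine ⟨c, ?_⟩
    simp only [LinearMap.comp_apply, Submodule.mkQ_apply]
    rw [eq_comm, Submodule.Quotient.eq, Ideal.smul_top_eq_map]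
    exact hN hxa
  refine ⟨Module.Finite.of_surjective f hf, eq_top_iff.2 fun x _ => ?_⟩
  obtain ⟨c, rfl⟩ := hf x
  simp only [f, Fintype.linearCombination_apply]
  exact sum_mem fun a _ => Subalgebra.smul_mem _ (hsub a.2) _

end Finite

section Dimension

variable {R D : Type*} [CommRing R] [CommRing D] [Algebra R D] [Algebra.IsIntegral R D]

theorem ringKrullDim_le_of_isIntegral : ringKrullDim D ≤ ringKrullDim R :=
  Order.krullDim_le_of_strictMono (PrimeSpectrum.comap (algebraMap R D)) fun P Q h =>
    Ideal.IsIntegral.comap_lt_comap (I := P.asIdeal) (J := Q.asIdeal) h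

theorem le_ringKrullDim_of_isIntegral (h : Function.Injective (algebraMap R D)) :
    ringKrullDim R ≤ ringKrullDim D := by
  refine iSup_le fun l => ?_
  obtain ⟨P, -, hP, hPl⟩ := Ideal.exists_ideal_over_prime_of_isIntegral (S := D) l.head.asIdeal ⊥
    (le_of_eq_of_le (by rw [← RingHom.ker_eq_comap_bot, (RingHom.injective_iff_ker_eq_bot _).1 h])
      bot_le)
  have : P.LiesOver l.head.asIdeal := ⟨hPl.symm⟩
  obtain ⟨L, hL, -, -⟩ := Ideal.exists_ltSeries_of_hasGoingUp l P
  exact le_iSup_of_le L (by rw [hL])

end Dimension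

/-- A finite extension of a regular ring by another of the same dimension is injective. -/
theorem injective_of_finite {R S D : Type*} [CommRing R] [IsDomain R] [IsLocalRing R]
    [IsNoetherianRing R] [CommRing S] [CommRing D] [IsDomain D] (e : R ≃+* S) (f : R →+* D)
    (hf : f.Finite) (g : S →+* D) (hg : g.Finite) (hg' : Function.Injective g) :
    Function.Injective f := by
  by_contra hne
  obtain ⟨x, hx, hx0⟩ : ∃ x, f x = 0 ∧ x ≠ 0 := by
    rw [injective_iff_map_eq_zero] at hne
    push Not at hne
    exact hne
  have h1 : ringKrullDim S ≤ ringKrullDim D := by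
    algebraize [g]
    have : Algebra.IsIntegral S D := Algebra.IsIntegral.of_finite S D
    exact le_ringKrullDim_of_isIntegral hg'
  have h2 : ringKrullDim D ≤ ringKrullDim (R ⧸ RingHom.ker f) := by
    let : Algebra (R ⧸ RingHom.ker f) D := (RingHom.kerLift f).toAlgebra
    have hfin : (RingHom.kerLift f).Finite :=
      RingHom.Finite.of_comp_finite (f := Ideal.Quotient.mk (RingHom.ker f)) (by
        rwa [RingHom.kerLift, Ideal.Quotient.lift_comp_mk])
    have : Algebra.IsIntegral (R ⧸ RingHom.ker f) D :=
      ⟨RingHom.Finite.to_isIntegral hfin⟩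
    exact ringKrullDim_le_of_isIntegral
  have h3 : ringKrullDim (R ⧸ RingHom.ker f) + 1 ≤ ringKrullDim R := by
    refine le_trans (add_le_add_left ?_ 1) (ringKrullDim_quotient_succ_le_of_nonZeroDivisor
      (mem_nonZeroDivisors_of_ne_zero hx0))
    exact ringKrullDim_le_of_surjective
      (Ideal.Quotient.factor ((Ideal.span_singleton_le_iff_mem _).2 hx))
      (Ideal.Quotient.factor_surjective _)
  rw [← ringKrullDim_eq_of_ringEquiv e] at h1
  have h4 := le_trans (add_le_add_left (h1.trans h2) 1) h3
  obtain ⟨n, hn⟩ : ∃ n : ℕ, ringKrullDim R = n := by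
    obtain ⟨a, ha⟩ := WithBot.ne_bot_iff_exists.1 (ringKrullDim_ne_bot (R := R))
    have : a ≠ ⊤ := fun h => ringKrullDim_ne_top (R := R) (by rw [← ha, h]; rfl)
    obtain ⟨n, rfl⟩ := ENat.ne_top_iff_exists.1 this
    exact ⟨n, ha.symm⟩
  rw [hn] at h4
  norm_cast at h4
  omega


/-- A matrix with entries in an ideal has a power in that ideal of any commutative algebra
containing it. -/
theorem pow_mem_map_of_entries_mem {S A : Type*} [CommRing S] [CommRing A] [Algebra S A] {d : ℕ}
    (j : A →ₐ[S] Matrix (Fin d) (Fin d) S) (hj : Function.Injective j) (I : Ideal S) (x : A)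
    (hx : ∀ a b, j x a b ∈ I) : x ^ d ∈ I.map (algebraMap S A) := by
  by_cases htop : I = ⊤
  · simp [htop, Ideal.map_top]
  have : Nontrivial (S ⧸ I) := Ideal.Quotient.nontrivial_iff.2 htop
  have : Nontrivial S := (Ideal.Quotient.mk I).domain_nontrivial
  set p := (j x).charpoly
  have hp : Polynomial.aeval x p = 0 := hj (by
    rw [← Polynomial.aeval_algHom_apply, Matrix.aeval_self_charpoly, map_zero])
  have hdeg : p.natDegree = d := by simp [p, Matrix.charpoly_natDegree_eq_dim]
  have hmap : p.map (Ideal.Quotient.mk I) = Polynomial.X ^ d := by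
    have h0 : (j x).map (Ideal.Quotient.mk I) = 0 := by
      ext a b
      simpa [Ideal.Quotient.eq_zero_iff_mem] using hx a b
    rw [← Matrix.charpoly_map, h0, Matrix.charpoly_zero, Fintype.card_fin]
  rw [Polynomial.aeval_eq_sum_range, hdeg, Finset.sum_range_succ] at hp
  have hlead : p.coeff d = 1 := by rw [← hdeg]; exact (Matrix.charpoly_monic _).coeff_natDegree
  rw [hlead, one_smul] at hp
  rw [eq_neg_of_add_eq_zero_right hp]
  refine neg_mem (Submodule.sum_mem _ fun i hi => ?_)
  rw [Algebra.smul_def]
  refine Ideal.mul_mem_right _ _ (Ideal.mem_map_of_mem _ ?_)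
  have := congrArg (fun q : Polynomial (S ⧸ I) => q.coeff i) hmap
  simp only [Polynomial.coeff_map, Polynomial.coeff_X_pow,
    (Finset.mem_range.1 hi).ne, if_false] at this
  exact Ideal.Quotient.eq_zero_iff_mem.1 this

/-- Power series in finitely many variables over a complete valuation ring are complete. -/
theorem isAdicComplete_mvPowerSeries_of_finite {O : Type} [CommRing O] [IsDomain O]
    [IsDiscreteValuationRing O] [IsAdicComplete (maximalIdeal O) O] (σ : Type) [Finite σ] :
    IsAdicComplete (maximalIdeal (MvPowerSeries σ O)) (MvPowerSeries σ O) := by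
  have := Fintype.ofFinite σ
  have e := (MvPowerSeries.renameEquiv O (Fintype.equivFin σ).symm).toRingEquiv
  have := FLTAgent.Deformation.isAdicComplete_mvPowerSeries (O := O) (Fintype.card σ)
  have h : (maximalIdeal (MvPowerSeries (Fin (Fintype.card σ)) O)).map (e : _ →+* _) =
      maximalIdeal (MvPowerSeries σ O) :=
    IsLocalRing.eq_maximalIdeal (Ideal.map_isMaximal_of_equiv e)
  rw [← h]
  exact (IsAdicComplete.congr_ringEquiv _ e).2 this

end FLTAgent.Lowering.P5
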