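import Fermat.Agent.Lowering.P5.Interface
import Fermat.Agent.Lowering.P5.Series
import Fermat.Agent.Lowering.P5.Restricted

/-!
# The curve of the local model

The only prime of the local model containing the twisted relations and meeting `O⟦u, g⟧` trivially
is contained in the prime where the maximal ideal of `O` and all inertia coordinates vanish.
-/

set_option autoImplicit false

noncomputable section

open IsLocalRing

namespace FLTAgent.Lowering.P5

variable {O : Type} [CommRing O] {k g : ℕ}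

/-- The kernel of setting the variables in `s` to zero. -/
theorem mem_span_X_of_killCompl_eq_zero {σ : Type} (s : Finset σ) {f : MvPowerSeries σ O}
    (h : MvPowerSeries.killCompl (Function.Embedding.subtype (· ∉ s)) f = 0) :
    f ∈ Ideal.span (MvPowerSeries.X '' (s : Set σ)) := by
  classical
  refine mem_span_X_of_coeff s f fun e he => ?_
  have hsupp : (e.support : Set σ) ⊆ Set.range (Function.Embedding.subtype (· ∉ s)) := fun i hi =>
    ⟨⟨i, fun his => Finsupp.mem_support_iff.1 hi (he i his)⟩, rfl⟩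
  obtain ⟨e', rfl⟩ := (Finsupp.mem_range_embDomain_iff _ _).2 hsupp
  simpa [MvPowerSeries.coeff_killCompl] using congrArg (MvPowerSeries.coeff e') h

theorem span_X_eq_ker {σ : Type} (s : Finset σ) :
    Ideal.span (MvPowerSeries.X '' (s : Set σ)) = RingHom.ker
      (MvPowerSeries.killCompl (R := O) (Function.Embedding.subtype (· ∉ s))).toRingHom := by
  refine le_antisymm (Ideal.span_le.2 ?_) fun f hf => mem_span_X_of_killCompl_eq_zero s hf
  rintro _ ⟨i, hi, rfl⟩
  refine MvPowerSeries.killCompl_X_eq_zero ?_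
  rintro ⟨⟨j, hj⟩, rfl⟩
  exact hj hi

theorem card_le_height_span_X [IsDomain O] [IsNoetherianRing O] [IsLocalRing O] {σ : Type} [Finite σ]
    (s : Finset σ) : (s.card : ℕ∞) ≤ (Ideal.span (MvPowerSeries.X '' (s : Set σ)) :
      Ideal (MvPowerSeries σ O)).height := by
  classical
  have hp : ∀ t : Finset σ, (Ideal.span (MvPowerSeries.X '' (t : Set σ)) :
      Ideal (MvPowerSeries σ O)).IsPrime := fun t => by
    have : IsDomain (MvPowerSeries {i // i ∉ t} O) := NoZeroDivisors.to_isDomain _
    rw [span_X_eq_ker]; exact RingHom.ker_isPrime _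
  induction s using Finset.induction_on with
  | empty => simp
  | @insert i s hi ih =>
    have := hp s
    have := hp (insert i s)
    rw [Finset.card_insert_of_notMem hi, Nat.cast_add, Nat.cast_one]
    refine (add_le_add_left ih 1).trans (Order.add_one_le_of_lt (Ideal.height_strict_mono_of_isPrime
      (SetLike.lt_iff_le_and_exists.2 ⟨Ideal.span_mono (Set.image_mono (by simp)),
        MvPowerSeries.X i, Ideal.subset_span ⟨i, by simp, rfl⟩, fun h => ?_⟩)))
    rw [span_X_eq_ker, RingHom.mem_ker] at h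
    have h1 : MvPowerSeries.killCompl (R := O) (Function.Embedding.subtype (· ∉ s))
        (MvPowerSeries.X i) = MvPowerSeries.X ⟨i, hi⟩ :=
      MvPowerSeries.killCompl_X (R := O) (e := Function.Embedding.subtype (· ∉ s)) ⟨i, hi⟩
    have h2 := congrArg (MvPowerSeries.coeff (Finsupp.single ⟨i, hi⟩ 1)) (h1.symm.trans h)
    simp at h2

/-- The base of the curve inside the local model. -/
def ofBase : MvPowerSeries (BaseVar k g) O →ₐ[O] Loc O k g :=
  MvPowerSeries.rename (Function.Embedding.inr : BaseVar k g ↪ LocVar k g)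

@[simp]
theorem ofBase_X (v : BaseVar k g) :
    ofBase (MvPowerSeries.X v : MvPowerSeries (BaseVar k g) O) = MvPowerSeries.X (Sum.inr v) :=
  MvPowerSeries.rename_X _ _

@[simp]
theorem ofBase_C (a : O) :
    ofBase (MvPowerSeries.C a : MvPowerSeries (BaseVar k g) O) = MvPowerSeries.C a :=
  MvPowerSeries.rename_C _ _

/-- Setting the inertia coordinates to zero. -/
def toBaseLoc : Loc O k g →ₐ[O] MvPowerSeries (BaseVar k g) O :=
  MvPowerSeries.killCompl (Function.Embedding.inr : BaseVar k g ↪ LocVar k g)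

@[simp]
theorem toBaseLoc_ofBase (x : MvPowerSeries (BaseVar k g) O) : toBaseLoc (ofBase x) = x :=
  MvPowerSeries.killCompl_rename_app _

@[simp]
theorem toBaseLoc_Xc (t : Fin k) (i : Fin 3) : toBaseLoc (Xc t i : Loc O k g) = 0 :=
  MvPowerSeries.killCompl_X_eq_zero (by simp)

theorem sub_ofBase_mem (x : Loc O k g) :
    x - ofBase (toBaseLoc x) ∈
      Ideal.span (Set.range fun v : Fin k × Fin 3 => (Xc v.1 v.2 : Loc O k g)) := by
  classical
  have h := mem_span_X_of_coeff (Finset.univ.image (Sum.inl : Fin k × Fin 3 → LocVar k g))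
    (x - ofBase (toBaseLoc x)) fun e he => ?_
  · refine Ideal.span_mono ?_ h
    rintro _ ⟨i, hi, rfl⟩
    obtain ⟨v, -, rfl⟩ := Finset.mem_image.1 hi
    exact ⟨v, rfl⟩
  · have hsupp : (e.support : Set (LocVar k g)) ⊆
        Set.range (Function.Embedding.inr : BaseVar k g ↪ LocVar k g) := by
      rintro (v | v) hi
      · exact absurd (he _ (Finset.mem_image.2 ⟨v, Finset.mem_univ v, rfl⟩))
          (Finsupp.mem_support_iff.1 hi)
      · exact ⟨v, rfl⟩
    obtain ⟨e', rfl⟩ := (Finsupp.mem_range_embDomain_iff _ _).2 hsupp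
    rw [map_sub, sub_eq_zero, ofBase, toBaseLoc, MvPowerSeries.coeff_embDomain_rename,
      MvPowerSeries.coeff_killCompl]

/-- The twisted relations. -/
def curveIdeal (δ : O) : Ideal (Loc O k g) :=
  Ideal.span (Set.range (fun v : Fin k × Fin 3 × Fin 3 => minor v.1 v.2.1 v.2.2) ∪
    Set.range (fun t : Fin k => curveRel δ t))

theorem minor_mem_curveIdeal (δ : O) (t : Fin k) (i j : Fin 3) :
    (minor t i j : Loc O k g) ∈ curveIdeal δ :=
  Ideal.subset_span (Or.inl ⟨(t, i, j), rfl⟩)

theorem curveRel_mem_curveIdeal (δ : O) (t : Fin k) :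
    (curveRel δ t : Loc O k g) ∈ curveIdeal δ :=
  Ideal.subset_span (Or.inr ⟨t, rfl⟩)

variable [IsDomain O] [IsDiscreteValuationRing O]

/-- The reduction with all inertia coordinates zero. -/
def redPA : Loc O k g →+* MvPowerSeries (BaseVar k g) (ResidueField O) :=
  (MvPowerSeries.map (residue O)).comp toBaseLoc.toRingHom

/-- The prime where the maximal ideal of `O` and the inertia coordinates vanish. -/
def PA : Ideal (Loc O k g) := RingHom.ker redPA

instance : (PA : Ideal (Loc O k g)).IsPrime :=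
  haveI : IsDomain (MvPowerSeries (BaseVar k g) (ResidueField O)) := NoZeroDivisors.to_isDomain _
  RingHom.ker_isPrime redPA

theorem Xc_mem_PA (t : Fin k) (i : Fin 3) : (Xc t i : Loc O k g) ∈ PA := by
  simp [PA, redPA]

theorem C_mem_PA {a : O} (ha : a ∈ maximalIdeal O) :
    (MvPowerSeries.C a : Loc O k g) ∈ PA := by
  simp only [PA, redPA, RingHom.mem_ker, RingHom.comp_apply, AlgHom.toRingHom_eq_coe,
    RingHom.coe_coe]
  rw [← ofBase_C, toBaseLoc_ofBase, MvPowerSeries.map_C, (residue_eq_zero_iff a).2 ha, map_zero]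

theorem toBaseLoc_Yc (t : Fin k) (i : Fin 3) :
    toBaseLoc (Yc t i : Loc O k g) = MvPowerSeries.X (Sum.inl (t, i)) := by
  have hu : toBaseLoc (Uc t i : Loc O k g) = MvPowerSeries.X (Sum.inl (t, i)) :=
    MvPowerSeries.killCompl_X (e := (Function.Embedding.inr : BaseVar k g ↪ LocVar k g))
      (Sum.inl (t, i))
  have hs : toBaseLoc (shift (Xc t) i : Loc O k g) = 0 := by
    fin_cases i <;> simp [shift]
  rw [Yc, map_sub, hu, hs, sub_zero]

theorem redPA_Yc (t : Fin k) (i : Fin 3) :
    redPA (Yc t i : Loc O k g) = MvPowerSeries.X (Sum.inl (t, i)) := by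
  simp [redPA, toBaseLoc_Yc]

theorem Yc_notMem_PA (t : Fin k) (i : Fin 3) : (Yc t i : Loc O k g) ∉ PA := fun h => by
  rw [PA, RingHom.mem_ker, redPA_Yc] at h
  simpa using congrArg (MvPowerSeries.coeff (Finsupp.single (Sum.inl (t, i)) 1)) h

theorem qf_Yc_sub_notMem_PA (t : Fin k) {c : O} (hc : c ∈ maximalIdeal O) :
    qf (Yc t) - MvPowerSeries.C c ∉ (PA : Ideal (Loc O k g)) := fun h => by
  have h1 : qf (Yc t) ∈ (PA : Ideal (Loc O k g)) := by
    simpa using Ideal.add_mem _ h (C_mem_PA hc)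
  rw [PA, RingHom.mem_ker, map_qf] at h1
  simp only [redPA_Yc, qf] at h1
  classical
  have := congrArg (MvPowerSeries.coeff (Finsupp.single (Sum.inl (t, (0 : Fin 3))) 2)) h1
  rw [map_add, MvPowerSeries.coeff_X_pow, if_pos rfl, MvPowerSeries.X_def, MvPowerSeries.X_def,
    MvPowerSeries.monomial_mul_monomial, MvPowerSeries.coeff_monomial, if_neg, map_zero] at this
  · simp at this
  · intro he
    simpa [Finsupp.single_apply] using congrArg (fun e => e (Sum.inl (t, (1 : Fin 3)))) he

theorem comap_ofBase_PA {x : MvPowerSeries (BaseVar k g) O} (hx : ofBase x ∈ (PA : Ideal (Loc O k g)))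
    {w : O} (hw : Irreducible w) : MvPowerSeries.C w ∣ x := by
  simp only [PA, redPA, RingHom.mem_ker, RingHom.comp_apply, AlgHom.toRingHom_eq_coe,
    RingHom.coe_coe, toBaseLoc_ofBase] at hx
  have hd : ∀ e, w ∣ MvPowerSeries.coeff e x := fun e => by
    rw [← Ideal.mem_span_singleton, ← hw.maximalIdeal_eq, ← residue_eq_zero_iff]
    simpa using congrArg (MvPowerSeries.coeff e) hx
  choose q hq using hd
  let Q : MvPowerSeries (BaseVar k g) O := fun e => q e
  have hQ : ∀ e, MvPowerSeries.coeff e Q = q e := fun e => rfl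
  exact ⟨Q, MvPowerSeries.ext fun e => by rw [MvPowerSeries.coeff_C_mul, hQ, ← hq e]⟩

theorem height_PA_gt : (3 * k : ℕ∞) < (PA : Ideal (Loc O k g)).height := by
  classical
  obtain ⟨w, hw⟩ := IsDiscreteValuationRing.exists_irreducible O
  set s := Finset.univ.image (Sum.inl : Fin k × Fin 3 → LocVar k g) with hs
  have hcard : s.card = 3 * k := by
    rw [hs, Finset.card_image_of_injective _ Sum.inl_injective]; simp [mul_comm]
  have h := card_le_height_span_X (O := O) s
  rw [hcard, Nat.cast_mul, Nat.cast_ofNat] at h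
  have hp : (Ideal.span (MvPowerSeries.X '' (s : Set (LocVar k g))) : Ideal (Loc O k g)).IsPrime := by
    have : IsDomain (MvPowerSeries {i // i ∉ s} O) := NoZeroDivisors.to_isDomain _
    rw [span_X_eq_ker]; exact RingHom.ker_isPrime _
  refine h.trans_lt (Ideal.height_strict_mono_of_isPrime (SetLike.lt_iff_le_and_exists.2
    ⟨Ideal.span_le.2 ?_, MvPowerSeries.C w, C_mem_PA (by
      rw [hw.maximalIdeal_eq]; exact Ideal.mem_span_singleton_self w), fun h => ?_⟩))
  · rintro _ ⟨i, hi, rfl⟩
    obtain ⟨v, -, rfl⟩ := Finset.mem_image.1 hi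
    exact Xc_mem_PA v.1 v.2
  · rw [span_X_eq_ker, RingHom.mem_ker] at h
    simp only [AlgHom.toRingHom_eq_coe, RingHom.coe_coe, MvPowerSeries.killCompl_C] at h
    exact hw.ne_zero (by simpa using congrArg MvPowerSeries.constantCoeff h)

section Curve

variable [IsAdicComplete (maximalIdeal O) O] {δ : O}

theorem pow_four_eq_zero {B : Type*} [CommRing B] {a b e : B} (h1 : b * b = a * e) (h2 : b * e = 0)
    (h3 : e * e = 0) (h4 : a ^ 2 + b * e = 0) : a ^ 4 = 0 ∧ b ^ 4 = 0 ∧ e ^ 4 = 0 := by
  refine ⟨?_, ?_, ?_⟩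
  · rw [h2, add_zero] at h4
    calc a ^ 4 = a ^ 2 * a ^ 2 := by ring
      _ = 0 := by rw [h4, zero_mul]
  · calc b ^ 4 = (b * b) * (b * b) := by ring
      _ = a * a * (e * e) := by rw [h1]; ring
      _ = 0 := by rw [h3, mul_zero]
  · calc e ^ 4 = (e * e) * (e * e) := by ring
      _ = 0 := by rw [h3, zero_mul]

/-- The quotient of the local model by the twisted relations is finite over the base and generated
by the inertia coordinates. -/
theorem finite_quotient_curveIdeal (hδ : δ ∈ maximalIdeal O) :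
    letI : Algebra (MvPowerSeries (BaseVar k g) O) (Loc O k g ⧸ curveIdeal δ) :=
      ((Ideal.Quotient.mk (curveIdeal δ)).comp ofBase.toRingHom).toAlgebra
    Module.Finite (MvPowerSeries (BaseVar k g) O) (Loc O k g ⧸ curveIdeal (k := k) (g := g) δ) ∧
      Algebra.adjoin (MvPowerSeries (BaseVar k g) O)
        (Set.range fun v : Fin k × Fin 3 => Ideal.Quotient.mk (curveIdeal δ) (Xc v.1 v.2)) =
          (⊤ : Subalgebra (MvPowerSeries (BaseVar k g) O) (Loc O k g ⧸ curveIdeal δ)) := by
  letI : Algebra (MvPowerSeries (BaseVar k g) O) (Loc O k g ⧸ curveIdeal δ) :=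
    ((Ideal.Quotient.mk (curveIdeal δ)).comp ofBase.toRingHom).toAlgebra
  set R' := MvPowerSeries (BaseVar k g) O
  set q := Ideal.Quotient.mk (curveIdeal (k := k) (g := g) δ) with hq
  have hal : ∀ a : R', algebraMap R' (Loc O k g ⧸ curveIdeal δ) a = q (ofBase a) := fun a => rfl
  have := isAdicComplete_mvPowerSeries_of_finite (O := O) (BaseVar k g)
  set M := (maximalIdeal R').map (algebraMap R' (Loc O k g ⧸ curveIdeal δ)) with hM
  have hleI : curveIdeal δ ≤ maximalIdeal (Loc O k g) := by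
    rw [curveIdeal, Ideal.span_le]
    rintro _ (⟨v, rfl⟩ | ⟨t, rfl⟩)
    · rw [SetLike.mem_coe, mem_maximalIdeal, mem_nonunits_iff,
        MvPowerSeries.isUnit_iff_constantCoeff]
      simp [minor, Xc]
    · rw [SetLike.mem_coe, mem_maximalIdeal, mem_nonunits_iff,
        MvPowerSeries.isUnit_iff_constantCoeff]
      simpa [curveRel, qf, Xc, sq] using hδ
  have hnt : Nontrivial (Loc O k g ⧸ curveIdeal δ) :=
    Ideal.Quotient.nontrivial_iff.2 fun h => (maximalIdeal.isMaximal _).ne_top
      (eq_top_iff.2 (h ▸ hleI))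
  have : IsLocalRing (Loc O k g ⧸ curveIdeal δ) :=
    IsLocalRing.of_surjective' q Ideal.Quotient.mk_surjective
  have : IsHausdorff M (Loc O k g ⧸ curveIdeal δ) := by
    refine IsHausdorff.of_isLocalRing (I := M) _ fun htop => ?_
    refine (maximalIdeal.isMaximal (Loc O k g ⧸ curveIdeal δ)).ne_top (eq_top_iff.2 ?_)
    rw [← htop, hM, Ideal.map_le_iff_le_comap]
    intro a ha
    rw [Ideal.mem_comap, hal, mem_maximalIdeal, mem_nonunits_iff]
    intro hu
    have := (IsLocalHom.of_surjective q Ideal.Quotient.mk_surjective).map_nonunit _ hu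
    rw [MvPowerSeries.isUnit_iff_constantCoeff, ofBase, MvPowerSeries.constantCoeff_rename,
      ← MvPowerSeries.isUnit_iff_constantCoeff] at this
    exact ha this
  have hnil : ∀ v : Fin k × Fin 3, q (Xc v.1 v.2) ∈ M.radical := by
    rintro ⟨t, i⟩
    let π := (Ideal.Quotient.mk M).comp q
    have hbase : ∀ a ∈ maximalIdeal R', π (ofBase a) = 0 := fun a ha =>
      Ideal.Quotient.eq_zero_iff_mem.2 (by rw [← hal]; exact Ideal.mem_map_of_mem _ ha)
    have hu : ∀ i, π (Uc t i) = 0 := fun i => by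
      rw [show (Uc t i : Loc O k g) = ofBase (MvPowerSeries.X (Sum.inl (t, i))) from (ofBase_X _).symm]
      exact hbase _ (by
        rw [mem_maximalIdeal, mem_nonunits_iff, MvPowerSeries.isUnit_iff_constantCoeff]
        simp)
    have hrel : ∀ {x}, x ∈ curveIdeal δ → π x = 0 := fun hx => by
      simp [π, q, Ideal.Quotient.eq_zero_iff_mem.2 hx]
    have h01 := hrel (minor_mem_curveIdeal (k := k) (g := g) δ t 0 1)
    have h02 := hrel (minor_mem_curveIdeal (k := k) (g := g) δ t 0 2)
    have h12 := hrel (minor_mem_curveIdeal (k := k) (g := g) δ t 1 2)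
    have hc := hrel (curveRel_mem_curveIdeal (k := k) (g := g) δ t)
    have hC : π (MvPowerSeries.C (δ ^ 2)) = 0 := by
      rw [← ofBase_C]
      refine hbase _ ?_
      rw [mem_maximalIdeal, mem_nonunits_iff, MvPowerSeries.isUnit_iff_constantCoeff,
        MvPowerSeries.constantCoeff_C, ← mem_nonunits_iff, ← mem_maximalIdeal]
      exact Ideal.pow_mem_of_mem _ hδ 2 two_pos
    simp only [minor, Yc, curveRel, qf, shift, map_sub, map_mul, map_add, map_pow, hu,
      Matrix.cons_val_zero, Matrix.cons_val_one, Matrix.cons_val, map_zero] at h01 h02 h12 hc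
    rw [← map_pow π (MvPowerSeries.C δ), ← map_pow MvPowerSeries.C, hC, sub_zero] at hc
    obtain ⟨ha, hb, he⟩ := pow_four_eq_zero (a := π (Xc t 0)) (b := π (Xc t 1)) (e := π (Xc t 2))
      (by linear_combination -h01) (by linear_combination -h02) (by linear_combination -h12) hc
    refine ⟨4, Ideal.Quotient.eq_zero_iff_mem.1 ?_⟩
    rw [map_pow]
    fin_cases i
    exacts [ha, hb, he]
  have h := finite_and_adjoin_eq_top (maximalIdeal R') (fun v : Fin k × Fin 3 => q (Xc v.1 v.2))
    (F := {1}) (Set.finite_singleton 1) (fun x => ?_) hnil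
  · refine ⟨h.1, eq_top_iff.2 (h.2 ▸ Algebra.adjoin_le (Set.union_subset ?_ Algebra.subset_adjoin))⟩
    rintro _ rfl
    exact one_mem _
  · obtain ⟨x, rfl⟩ := Ideal.Quotient.mk_surjective x
    refine ⟨q (ofBase (toBaseLoc x)), Submodule.mem_span_singleton.2 ⟨toBaseLoc x, ?_⟩, ?_⟩
    · rw [Algebra.smul_def, mul_one, hal]
    · rw [← map_sub, ← Function.comp_def (f := q), Set.range_comp, ← Ideal.map_span]
      exact Ideal.mem_map_of_mem _ (sub_ofBase_mem x)

/-- A curve prime: it contains the twisted relations and meets the base trivially. -/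
structure IsCurvePrime (δ : O) (Q : Ideal (Loc O k g)) : Prop where
  prime : Q.IsPrime
  le : curveIdeal δ ≤ Q
  base : ∀ a, ofBase a ∈ Q → a = 0

theorem IsCurvePrime.le_of (h2 : (2 : ResidueField O) ≠ 0) (hδ0 : δ ≠ 0)
    (hδ : δ ∈ maximalIdeal O) {Q Q' : Ideal (Loc O k g)} (hQ : IsCurvePrime δ Q)
    (hQ' : IsCurvePrime δ Q') : Q ≤ Q' := by
  set R' := MvPowerSeries (BaseVar k g) O
  set K := FractionRing R'
  have : IsDomain R' := NoZeroDivisors.to_isDomain _
  letI : Algebra R' (Loc O k g ⧸ curveIdeal δ) :=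
    ((Ideal.Quotient.mk (curveIdeal δ)).comp ofBase.toRingHom).toAlgebra
  set u' : Fin k → Fin 3 → K := fun t i => algebraMap R' K (MvPowerSeries.X (Sum.inl (t, i))) /
    algebraMap R' K (MvPowerSeries.C δ)
  -- data attached to a curve prime
  have key : ∀ {P : Ideal (Loc O k g)} (_ : IsCurvePrime δ P), ∃ (Ω : Type) (_ : Field Ω)
      (π : Loc O k g →+* Ω) (ψ : K →+* Ω) (c : Fin k → Ω), RingHom.ker π = P ∧
      (∀ a, ψ (algebraMap R' K a) = π (ofBase a)) ∧
      (∀ t, (sextic (u' t)).eval₂ ψ (c t) = 0) ∧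
      ∀ t i, π (Xc t i) * c t ^ 3 = adjJ (c t) (fun j => π (Uc t j)) i := by
    intro P hP
    have := hP.prime
    let π : Loc O k g →+* FractionRing (Loc O k g ⧸ P) :=
      (algebraMap (Loc O k g ⧸ P) _).comp (Ideal.Quotient.mk P)
    have hker : RingHom.ker π = P := by
      rw [RingHom.ker_comp_of_injective _ (IsFractionRing.injective _ _), Ideal.mk_ker]
    have hzero : ∀ x, π x = 0 ↔ x ∈ P := fun x => by rw [← RingHom.mem_ker, hker]
    have hinj : Function.Injective (π.comp (ofBase (O := O) (k := k) (g := g)).toRingHom) :=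
      (injective_iff_map_eq_zero _).2 fun a ha => hP.base a ((hzero _).1 ha)
    let ψ : K →+* FractionRing (Loc O k g ⧸ P) := IsFractionRing.lift (K := K) hinj
    have hψ : ∀ a, ψ (algebraMap R' K a) = π (ofBase a) := fun a =>
      IsFractionRing.lift_algebraMap hinj a
    have hC : π (MvPowerSeries.C δ) ≠ 0 := fun h => hδ0 (by
      have := hP.base (MvPowerSeries.C δ) ((hzero _).1 (by rwa [ofBase_C]))
      simpa using congrArg MvPowerSeries.constantCoeff this)
    have hcurve : ∀ t, qf (fun i => π (Xc t i)) = π (MvPowerSeries.C δ) ^ 2 := fun t => by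
      have := (hzero _).2 (hP.le (curveRel_mem_curveIdeal δ t))
      rwa [curveRel, map_sub, sub_eq_zero, map_qf, map_pow, map_pow] at this
    have hne : ∀ t, ∃ i, π (Xc t i) ≠ 0 := fun t => by
      by_contra h
      push Not at h
      have := hcurve t
      simp only [qf, h, ne_eq, OfNat.ofNat_ne_zero, not_false_eq_true, zero_pow, mul_zero,
        add_zero] at this
      exact hC (pow_eq_zero_iff (n := 2) two_ne_zero |>.1 this.symm)
    choose i₀ hi₀ using hne
    let c : Fin k → FractionRing (Loc O k g ⧸ P) := fun t => π (Yc t (i₀ t)) / π (Xc t (i₀ t))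
    have hY : ∀ t i, π (Yc t i) = c t * π (Xc t i) := fun t i => by
      have := (hzero _).2 (hP.le (minor_mem_curveIdeal δ t i (i₀ t)))
      simp only [minor, map_sub, map_mul] at this
      simp only [c]
      field_simp [hi₀ t]
      linear_combination this
    have hU : ∀ t i, π (Uc t i) = π (Yc t i) + shift (fun j => π (Xc t j)) i := fun t i => by
      rw [Yc, map_sub]
      fin_cases i <;> simp [shift]
    refine ⟨_, inferInstance, π, ψ, c, hker, hψ, fun t => ?_, fun t i => ?_⟩
    · rw [eval₂_sextic]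
      have h := qf_adjJ_eq (x := fun i => π (Xc t i)) (y := fun i => π (Yc t i))
        (u := fun i => π (Uc t i)) (hY t) (hU t)
      rw [hcurve] at h
      have hs : (fun i => ψ (u' t i)) = fun i => π (Uc t i) / π (MvPowerSeries.C δ) := by
        funext i
        simp [u', map_div₀, hψ, Uc]
      have hscale : qf (adjJ (c t) fun i => π (Uc t i) / π (MvPowerSeries.C δ)) =
          qf (adjJ (c t) fun i => π (Uc t i)) / π (MvPowerSeries.C δ) ^ 2 := by
        simp only [qf, adjJ, Matrix.cons_val_zero, Matrix.cons_val_one, Matrix.cons_val]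
        field_simp
      rw [hs, hscale, h]
      field_simp
      ring
    · rw [adjJ_eq (x := fun i => π (Xc t i)) (y := fun i => π (Yc t i)) (hY t) (hU t) i]
      ring
  obtain ⟨Ω, _, π, ψ, c, hker, hψ, hc, hX⟩ := key hQ
  obtain ⟨Ω', _, π', ψ', c', hker', hψ', hc', hX'⟩ := key hQ'
  -- the coordinates as polynomials in the roots
  have hcoeff : ∀ t, (sextic (u' t)).coeff 0 = -(u' t 2 ^ 2) := fun t => by
    simp [sextic_eq, Polynomial.coeff_zero_eq_eval_zero]
  have hu2 : ∀ t, u' t 2 ≠ 0 := fun t h => by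
    simp only [u', div_eq_zero_iff] at h
    rcases h with h | h
    · rw [(IsFractionRing.injective R' K).eq_iff' (map_zero _)] at h
      simpa using congrArg (MvPowerSeries.coeff (Finsupp.single (Sum.inl (t, (2 : Fin 3))) 1)) h
    · rw [(IsFractionRing.injective R' K).eq_iff' (map_zero _)] at h
      exact hδ0 (by simpa using congrArg MvPowerSeries.constantCoeff h)
  let inv : Fin k → MvPolynomial (Fin k) K := fun t =>
    MvPolynomial.C (u' t 2 ^ 2)⁻¹ *
      Polynomial.eval₂ MvPolynomial.C (MvPolynomial.X t) (sextic (u' t)).divX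
  let W : Fin k → Fin 3 → MvPolynomial (Fin k) K := fun t i =>
    adjJ (MvPolynomial.X t) (fun j => MvPolynomial.C (algebraMap R' K
      (MvPowerSeries.X (Sum.inl (t, j))))) i * inv t ^ 3
  have hW : ∀ {Z : Type} [Field Z] (p : Loc O k g →+* Z) (f : K →+* Z) (d : Fin k → Z)
      (_ : ∀ a, f (algebraMap R' K a) = p (ofBase a))
      (_ : ∀ t, (sextic (u' t)).eval₂ f (d t) = 0)
      (_ : ∀ t i, p (Xc t i) * d t ^ 3 = adjJ (d t) (fun j => p (Uc t j)) i)
      (t : Fin k) (i : Fin 3), MvPolynomial.eval₂ f d (W t i) = p (Xc t i) := by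
    intro Z _ p f d hf hd hx t i
    have hinv : MvPolynomial.eval₂ f d (inv t) * d t = 1 := by
      have h := hd t
      rw [← Polynomial.divX_mul_X_add (sextic (u' t)), Polynomial.eval₂_add, Polynomial.eval₂_mul,
        Polynomial.eval₂_X, Polynomial.eval₂_C, hcoeff, map_neg] at h
      simp only [inv, MvPolynomial.eval₂_mul, MvPolynomial.eval₂_C]
      rw [← MvPolynomial.coe_eval₂Hom, Polynomial.hom_eval₂, MvPolynomial.eval₂Hom_comp_C,
        MvPolynomial.coe_eval₂Hom, MvPolynomial.eval₂_X, mul_assoc,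
        eq_of_sub_eq_zero (by rw [sub_eq_add_neg]; exact h :
          Polynomial.eval₂ f (d t) (sextic (u' t)).divX * d t - f (u' t 2 ^ 2) = 0),
        ← map_mul, inv_mul_cancel₀ (pow_ne_zero _ (hu2 t)), map_one]
    simp only [W, MvPolynomial.eval₂_mul, MvPolynomial.eval₂_pow]
    rw [← MvPolynomial.coe_eval₂Hom]
    rw [congrFun (map_adjJ (MvPolynomial.eval₂Hom f d) _ _) i]
    simp only [MvPolynomial.coe_eval₂Hom, MvPolynomial.eval₂_X, MvPolynomial.eval₂_C, hf, ofBase_X]
    show adjJ (d t) (fun j => p (Uc t j)) i * _ = _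
    rw [← hx t i, mul_assoc, ← mul_pow, mul_comm (d t), hinv, one_pow, mul_one]
  intro x hx
  obtain ⟨p, hp⟩ : ∃ p : MvPolynomial (Fin k × Fin 3) R', MvPolynomial.aeval
      (fun v => Ideal.Quotient.mk (curveIdeal δ) (Xc v.1 v.2)) p =
        Ideal.Quotient.mk (curveIdeal δ) x := by
    have : Ideal.Quotient.mk (curveIdeal δ) x ∈ (MvPolynomial.aeval (R := R')
        fun v : Fin k × Fin 3 => Ideal.Quotient.mk (curveIdeal δ) (Xc v.1 v.2)).range := by
      rw [← Algebra.adjoin_range_eq_range_aeval, (finite_quotient_curveIdeal hδ).2]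
      exact Algebra.mem_top
    exact this
  let G : MvPolynomial (Fin k) K :=
    MvPolynomial.eval₂ (MvPolynomial.C.comp (algebraMap R' K)) (fun v => W v.1 v.2) p
  have hG : ∀ {Z : Type} [Field Z] (π : Loc O k g →+* Z) (ψ : K →+* Z) (d : Fin k → Z)
      (_ : curveIdeal δ ≤ RingHom.ker π) (_ : ∀ a, ψ (algebraMap R' K a) = π (ofBase a))
      (_ : ∀ t i, MvPolynomial.eval₂ ψ d (W t i) = π (Xc t i)),
      MvPolynomial.eval₂ ψ d G = π x := by
    intro Z _ π ψ d hle hψ hW
    let πq := Ideal.Quotient.lift (curveIdeal δ) π fun a ha => hle ha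
    have h1 := congrArg πq hp
    rw [show πq (Ideal.Quotient.mk _ x) = π x from Ideal.Quotient.lift_mk _ _ _,
      MvPolynomial.aeval_def, MvPolynomial.eval₂_comp_left πq] at h1
    rw [← h1]
    simp only [G]
    rw [← MvPolynomial.coe_eval₂Hom ψ d, MvPolynomial.eval₂_comp_left (MvPolynomial.eval₂Hom ψ d)]
    congr 1
    · ext a
      simp [hψ, RingHom.algebraMap_toAlgebra]
      exact (Ideal.Quotient.lift_mk _ _ _).symm
    · funext v
      simp [hW]
      exact (Ideal.Quotient.lift_mk _ _ _).symm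
  have h0 : MvPolynomial.eval₂ ψ c G = 0 := by
    rw [hG π ψ c (hker.symm ▸ hQ.le) hψ (hW π ψ c hψ hc hX), ← RingHom.mem_ker, hker]
    exact hx
  have h1 := eval₂_eq_zero_of_roots O k g h2 hδ0 hδ G ψ c ψ' c' hc hc' h0
  rw [hG π' ψ' c' (hker'.symm ▸ hQ'.le) hψ' (hW π' ψ' c' hψ' hc' hX'), ← RingHom.mem_ker, hker'] at h1
  exact h1

theorem exists_isCurvePrime_le_PA (hδ : δ ∈ maximalIdeal O) :
    ∃ Q : Ideal (Loc O k g), IsCurvePrime δ Q ∧ Q ≤ PA := by
  classical
  let gen : Fin k × Fin 3 → Loc O k g := fun v =>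
    ![curveRel δ v.1, minor v.1 1 0, minor v.1 2 0] v.2
  let s := Finset.univ.image gen
  have hle : Ideal.span (s : Set (Loc O k g)) ≤ PA := by
    rw [Ideal.span_le]
    intro x hx
    obtain ⟨⟨t, i⟩, -, rfl⟩ := Finset.mem_image.1 hx
    have hX := Xc_mem_PA (O := O) (k := k) (g := g) t
    have hmin : ∀ a b, (minor t a b : Loc O k g) ∈ PA := fun a b =>
      sub_mem (Ideal.mul_mem_left _ _ (hX b)) (Ideal.mul_mem_left _ _ (hX a))
    fin_cases i
    · exact sub_mem (Ideal.add_mem _ (Ideal.pow_mem_of_mem _ (hX 0) 2 two_pos)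
        (Ideal.mul_mem_left _ _ (hX 2))) (C_mem_PA (Ideal.pow_mem_of_mem _ hδ 2 two_pos))
    · exact hmin 1 0
    · exact hmin 2 0
  obtain ⟨Q, hQmin, hQle⟩ := Ideal.exists_minimalPrimes_le hle
  have := hQmin.1.1
  have hmemQ : ∀ v, gen v ∈ Q := fun v =>
    hQmin.1.2 (Ideal.subset_span (Finset.mem_image_of_mem _ (Finset.mem_univ v)))
  have hne : Q ≠ PA := by
    rintro rfl
    have h1 : (PA : Ideal (Loc O k g)).height ≤ (s.card : ℕ∞) :=
      Ideal.height_le_card_of_mem_minimalPrimes_span_finset hQmin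
    have h2 : (s.card : ℕ∞) ≤ 3 * k := by
      have := Finset.card_image_le (s := (Finset.univ : Finset (Fin k × Fin 3))) (f := gen)
      simp only [Finset.card_univ, Fintype.card_prod, Fintype.card_fin] at this
      exact_mod_cast (this.trans (le_of_eq (mul_comm _ _)))
    exact (height_PA_gt (O := O) (k := k) (g := g)).not_ge (h1.trans h2)
  have hminor : ∀ t i j, (minor t i j : Loc O k g) ∈ Q := by
    intro t
    have h1 : (minor t 1 0 : Loc O k g) ∈ Q := hmemQ (t, 1)
    have h2 : (minor t 2 0 : Loc O k g) ∈ Q := hmemQ (t, 2)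
    have h21 : (minor t 2 1 : Loc O k g) ∈ Q := by
      have : (Yc t 0 : Loc O k g) * minor t 2 1 =
          Yc t 1 * minor t 2 0 - Yc t 2 * minor t 1 0 + 0 := by simp only [minor]; ring
      refine (Ideal.IsPrime.mem_or_mem ‹Q.IsPrime› (x := Yc t 0) ?_).resolve_left
        fun h => Yc_notMem_PA t 0 (hQle h)
      rw [this, add_zero]
      exact sub_mem (Ideal.mul_mem_left _ _ h2) (Ideal.mul_mem_left _ _ h1)
    have hneg : ∀ a b, (minor t a b : Loc O k g) ∈ Q → (minor t b a : Loc O k g) ∈ Q := fun a b h => by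
      have : (minor t b a : Loc O k g) = -minor t a b := by simp only [minor]; ring
      rw [this]; exact neg_mem h
    have hself : ∀ a, (minor t a a : Loc O k g) ∈ Q := fun a => by simp [minor]
    intro i j
    fin_cases i <;> fin_cases j
    exacts [hself 0, hneg _ _ h1, hneg _ _ h2, h1, hself 1, hneg _ _ h21, h2, h21, hself 2]
  have hI : curveIdeal δ ≤ Q := by
    rw [curveIdeal, Ideal.span_le]
    rintro _ (⟨⟨t, i, j⟩, rfl⟩ | ⟨t, rfl⟩)
    · exact hminor t i j
    · exact hmemQ (t, 0)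
  obtain ⟨w, hw⟩ := IsDiscreteValuationRing.exists_irreducible O
  have hwQ : (MvPowerSeries.C w : Loc O k g) ∉ Q := by
    intro hwQ
    refine hne (le_antisymm hQle ?_)
    have hXQ : ∀ t i, (Xc t i : Loc O k g) ∈ Q := by
      intro t
      have hq : qf (Xc t) ∈ Q := by
        have h1 : (MvPowerSeries.C (δ ^ 2) : Loc O k g) ∈ Q := by
          rw [hw.maximalIdeal_eq, Ideal.mem_span_singleton] at hδ
          obtain ⟨q, rfl⟩ := hδ
          rw [mul_pow, sq w, mul_assoc, map_mul]
          exact Ideal.mul_mem_right _ _ hwQ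
        simpa [curveRel] using Ideal.add_mem _ (hI (curveRel_mem_curveIdeal δ t)) h1
      have hq' : Xc t 0 ^ 2 * qf (Yc t) ∈ Q := by
        have hk : ∀ a, Ideal.Quotient.mk Q (Yc t a * Xc t 0) =
            Ideal.Quotient.mk Q (Yc t 0 * Xc t a) := fun a =>
          Ideal.Quotient.eq.2 (by simpa [minor] using hminor t a 0)
        rw [← Ideal.Quotient.eq_zero_iff_mem] at hq ⊢
        simp only [qf, map_add, map_mul, map_pow] at hq hk ⊢
        linear_combination (Ideal.Quotient.mk Q (Yc t 0)) ^ 2 * hq +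
          (Ideal.Quotient.mk Q (Xc t 0) * Ideal.Quotient.mk Q (Yc t 2)) * hk 1 +
          (Ideal.Quotient.mk Q (Yc t 0) * Ideal.Quotient.mk Q (Xc t 1)) * hk 2
      have hY : qf (Yc t) ∉ Q := fun h => by
        simpa using qf_Yc_sub_notMem_PA (O := O) (k := k) (g := g) t (c := 0) (zero_mem _)
          (by simpa using hQle h)
      have h0 : (Xc t 0 : Loc O k g) ∈ Q :=
        Ideal.IsPrime.mem_of_pow_mem ‹_› 2 ((Ideal.IsPrime.mem_or_mem ‹_› hq').resolve_right hY)
      intro i
      refine (Ideal.IsPrime.mem_or_mem ‹Q.IsPrime› (x := Yc t 0) ?_).resolve_left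
        fun h => Yc_notMem_PA t 0 (hQle h)
      have := sub_mem (Ideal.mul_mem_left Q (Yc t i) h0) (hminor t i 0)
      simpa [minor] using this
    intro x hx
    rw [← sub_add_cancel x (ofBase (toBaseLoc x))]
    have hspan : Ideal.span (Set.range fun v : Fin k × Fin 3 => (Xc v.1 v.2 : Loc O k g)) ≤ Q :=
      Ideal.span_le.2 (by rintro _ ⟨v, rfl⟩; exact hXQ _ _)
    refine add_mem (hspan (sub_ofBase_mem x)) ?_
    have hx' : ofBase (toBaseLoc x) ∈ (PA : Ideal (Loc O k g)) := by
      simp only [PA, redPA, RingHom.mem_ker, RingHom.comp_apply, AlgHom.toRingHom_eq_coe,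
        RingHom.coe_coe, toBaseLoc_ofBase] at hx ⊢
      exact hx
    obtain ⟨q, hq⟩ := comap_ofBase_PA hx' hw
    rw [hq, map_mul, ofBase_C]
    exact Ideal.mul_mem_right _ _ hwQ
  refine ⟨Q, ⟨‹_›, hI, ?_⟩, hQle⟩
  intro a ha
  have hdiv : ∀ n : ℕ, ∃ b, a = MvPowerSeries.C w ^ n * b ∧ ofBase b ∈ Q := by
    intro n
    induction n with
    | zero => exact ⟨a, by simp, ha⟩
    | succ n ih =>
      obtain ⟨b, rfl, hb⟩ := ih
      obtain ⟨c, rfl⟩ := comap_ofBase_PA (hQle hb) hw
      rw [map_mul, ofBase_C] at hb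
      exact ⟨c, by ring, ((Ideal.IsPrime.mem_or_mem ‹_› hb).resolve_left hwQ)⟩
  refine MvPowerSeries.ext fun e => ?_
  rw [map_zero]
  refine IsHausdorff.haus (I := maximalIdeal O) inferInstance _ fun n => ?_
  rw [SModEq.zero, smul_eq_mul, Ideal.mul_top, hw.maximalIdeal_eq, Ideal.span_singleton_pow,
    Ideal.mem_span_singleton]
  obtain ⟨b, rfl, -⟩ := hdiv n
  rw [← map_pow, MvPowerSeries.coeff_C_mul]
  exact dvd_mul_right _ _

end Curve

end FLTAgent.Lowering.P5
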