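import Mathlib

/-!
# The sextic attached to the local model at a prime to be removed

For traceless matrices `X`, `Y` with `Y = c • X` and `q(X) = δ²`, the parameter `u = Y + J X`
satisfies `c ^ 6 * δ ^ 2 = q (adj (c + J) u)`, where `J` is the shift. The sextic in `c` with
indeterminate `u` (scaled by `δ`) is irreducible.
-/

set_option autoImplicit false

noncomputable section

open Polynomial

namespace FLTAgent.Lowering.P5

section Defs

variable {A B : Type*} [CommRing A] [CommRing B]

/-- The quadratic form `a² + b e` on `(a, b, e)`, minus the determinant of the traceless matrix. -/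
def qf (v : Fin 3 → A) : A := v 0 ^ 2 + v 1 * v 2

/-- The shift `(a, b, e) ↦ (b, e, 0)`. -/
def shift (v : Fin 3 → A) : Fin 3 → A := ![v 1, v 2, 0]

/-- The adjugate of `c + J` applied to `u`. -/
def adjJ (c : A) (u : Fin 3 → A) : Fin 3 → A :=
  ![c ^ 2 * u 0 - c * u 1 + u 2, c ^ 2 * u 1 - c * u 2, c ^ 2 * u 2]

theorem map_qf (f : A →+* B) (v : Fin 3 → A) : f (qf v) = qf fun i => f (v i) := by
  simp [qf]

theorem map_adjJ (f : A →+* B) (c : A) (u : Fin 3 → A) :
    (fun i => f (adjJ c u i)) = adjJ (f c) fun i => f (u i) := by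
  funext i; fin_cases i <;> simp [adjJ]

/-- The sextic `C ^ 6 - q (adj (C + J) u)`. -/
def sextic (u : Fin 3 → A) : A[X] := X ^ 6 - qf (adjJ X fun i => C (u i))

theorem sextic_eq (u : Fin 3 → A) : sextic u = X ^ 6 -
    ((X ^ 2 * C (u 0) - X * C (u 1) + C (u 2)) ^ 2 +
      (X ^ 2 * C (u 1) - X * C (u 2)) * (X ^ 2 * C (u 2))) := by
  simp [sextic, qf, adjJ]

theorem sextic_monic (u : Fin 3 → A) : (sextic u).Monic := by
  refine monic_X_pow_sub ?_
  refine lt_of_le_of_lt (b := (4 : WithBot ℕ)) ?_ (by norm_num)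
  simp only [qf, adjJ, Matrix.cons_val_zero, Matrix.cons_val_one, Matrix.cons_val]
  compute_degree

theorem map_sextic (f : A →+* B) (u : Fin 3 → A) :
    (sextic u).map f = sextic fun i => f (u i) := by
  simp [sextic_eq, Polynomial.map_sub, Polynomial.map_add, Polynomial.map_mul, Polynomial.map_pow]

theorem eval₂_sextic (f : A →+* B) (c : B) (u : Fin 3 → A) :
    (sextic u).eval₂ f c = c ^ 6 - qf (adjJ c fun i => f (u i)) := by
  simp only [sextic_eq, qf, adjJ, eval₂_sub, eval₂_add, eval₂_mul, eval₂_pow, eval₂_X, eval₂_C,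
    Matrix.cons_val_zero, Matrix.cons_val_one, Matrix.cons_val]

/-- The relation between the coordinates on the curve part of the local model. -/
theorem qf_adjJ_eq {c : A} {x y u : Fin 3 → A} (hy : ∀ i, y i = c * x i)
    (hu : ∀ i, u i = y i + shift x i) : qf (adjJ c u) = c ^ 6 * qf x := by
  simp only [qf, adjJ, hu, hy, shift, Matrix.cons_val_zero, Matrix.cons_val_one, Matrix.cons_val]
  ring

theorem adjJ_eq {c : A} {x y u : Fin 3 → A} (hy : ∀ i, y i = c * x i)
    (hu : ∀ i, u i = y i + shift x i) (i : Fin 3) : adjJ c u i = c ^ 3 * x i := by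
  fin_cases i <;>
    simp only [adjJ, hu, hy, shift, Fin.isValue, Matrix.cons_val_zero, Matrix.cons_val_one,
      Matrix.cons_val, Fin.zero_eta, Fin.mk_one, Fin.reduceFinMk] <;> ring

end Defs

section Irreducible

variable (F : Type*) [Field F]

/-- The specialisation `u = (t, 0, 1)` of the sextic. -/
def testSextic : F[X][X] := sextic ![X, 0, 1]

/-- `testSextic` as a quadratic in `t` over `F[C]`. -/
theorem swap_testSextic : Bivariate.swap (testSextic F) =
    C (-X ^ 4 : F[X]) * X ^ 2 + C (-(2 * X ^ 2)) * X + C (X ^ 6 + X ^ 3 - 1) := by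
  simp only [testSextic, sextic_eq, Matrix.cons_val_zero, Matrix.cons_val_one, Matrix.cons_val,
    map_zero, map_one, map_sub, map_add, map_mul, map_pow, Bivariate.swap_X, Bivariate.swap_Y,
    map_neg, map_ofNat]
  ring

variable {F}

theorem irreducible_testSextic (h2 : (2 : F) ≠ 0) : Irreducible (testSextic F) := by
  rw [← MulEquiv.irreducible_iff (Bivariate.swap (R := F)).toMulEquiv]
  show Irreducible (Bivariate.swap (testSextic F))
  rw [swap_testSextic]
  set a : F[X] := -X ^ 4 with ha
  set b : F[X] := -(2 * X ^ 2) with hb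
  set d : F[X] := X ^ 6 + X ^ 3 - 1 with hd
  have hd0 : d.coeff 0 = -1 := by simp [hd, coeff_X_pow, coeff_one]
  have ha0 : a ≠ 0 := by simp [ha]
  have hdeg : (C a * X ^ 2 + C b * X + C d).natDegree = 2 := natDegree_quadratic ha0
  -- the content is trivial
  have hcont : ∀ g : F[X], g ∣ a → g ∣ d → IsUnit g := by
    intro g hga hgd
    have hco : IsCoprime a d := by
      have h1 : IsCoprime (X ^ 4 : F[X]) d := by
        refine IsCoprime.pow_left ?_
        refine (prime_X).coprime_iff_not_dvd.2 ?_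
        rw [X_dvd_iff, hd0]; simp
      exact h1.neg_left
    exact hco.isUnit_of_dvd' hga hgd
  refine ⟨fun hu => ?_, ?_⟩
  · have := natDegree_eq_zero_of_isUnit hu
    omega
  intro g₁ g₂ hg
  by_contra hne
  push Not at hne
  obtain ⟨h1, h2'⟩ := hne
  have hf0 : C a * X ^ 2 + C b * X + C d ≠ 0 := fun h => by simp [h] at hdeg
  have hg10 : g₁ ≠ 0 := fun h => hf0 (by rw [hg, h, zero_mul])
  have hg20 : g₂ ≠ 0 := fun h => hf0 (by rw [hg, h, mul_zero])
  have hsum : g₁.natDegree + g₂.natDegree = 2 := by rw [← natDegree_mul hg10 hg20, ← hg, hdeg]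
  -- no factor is constant in `t`
  have key : ∀ k m : F[X][X], C a * X ^ 2 + C b * X + C d = k * m → k.natDegree = 0 → IsUnit k := by
    intro k m hkm hk
    obtain ⟨e, rfl⟩ := natDegree_eq_zero.1 hk
    refine isUnit_C.2 (hcont e ⟨m.coeff 2, ?_⟩ ⟨m.coeff 0, ?_⟩)
    · have := congrArg (fun f => f.coeff 2) hkm
      simpa [coeff_C, coeff_X, -map_mul, -map_add] using this
    · have := congrArg (fun f => f.coeff 0) hkm
      simpa [coeff_C, coeff_X, -map_mul, -map_add] using this
  have hd1 : g₁.natDegree ≠ 0 := fun h => h1 (key g₁ g₂ hg h)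
  have hd2 : g₂.natDegree ≠ 0 := fun h => h2' (key g₂ g₁ (hg.trans (mul_comm _ _)) h)
  obtain ⟨e₁, f₁, rfl⟩ : ∃ e f, g₁ = C e * X + C f :=
    exists_eq_X_add_C_of_natDegree_le_one (by omega)
  obtain ⟨e₂, f₂, rfl⟩ : ∃ e f, g₂ = C e * X + C f :=
    exists_eq_X_add_C_of_natDegree_le_one (by omega)
  have hprod : (C e₁ * X + C f₁) * (C e₂ * X + C f₂) =
      C (e₁ * e₂) * X ^ 2 + C (e₁ * f₂ + f₁ * e₂) * X + C (f₁ * f₂) := by
    simp only [map_add, map_mul]; ring
  rw [hprod] at hg
  have hA : a = e₁ * e₂ := by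
    have := congrArg (fun f => f.coeff 2) hg
    simpa [coeff_C, coeff_X, -map_mul, -map_add] using this
  have hB : b = e₁ * f₂ + f₁ * e₂ := by
    have := congrArg (fun f => f.coeff 1) hg
    simpa [coeff_C, coeff_X, -map_mul, -map_add] using this
  have hD : d = f₁ * f₂ := by
    have := congrArg (fun f => f.coeff 0) hg
    simpa [coeff_C, coeff_X, -map_mul, -map_add] using this
  -- the discriminant would be a square
  have hsq : (e₁ * f₂ - f₁ * e₂) ^ 2 = 4 * (X ^ 7 * (X ^ 3 + 1) : F[X]) := by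
    calc (e₁ * f₂ - f₁ * e₂) ^ 2 = (e₁ * f₂ + f₁ * e₂) ^ 2 - 4 * (e₁ * e₂) * (f₁ * f₂) := by ring
      _ = 4 * (X ^ 7 * (X ^ 3 + 1)) := by rw [← hB, ← hA, ← hD, ha, hb, hd]; ring
  have h40 : (4 : F[X]) ≠ 0 := by
    have : (4 : F[X]) = C ((2 : F) * 2) := by rw [map_mul, map_ofNat]; norm_num
    rw [this, C_ne_zero]
    exact mul_ne_zero h2 h2
  have hX3 : (X ^ 3 + 1 : F[X]) ≠ 0 := fun h => by simpa using congrArg (fun f => f.coeff 0) h
  have ht := congrArg natTrailingDegree hsq
  rw [natTrailingDegree_mul h40 (mul_ne_zero (pow_ne_zero _ X_ne_zero) hX3),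
    natTrailingDegree_mul (pow_ne_zero _ X_ne_zero) hX3, natTrailingDegree_X_pow,
    show (4 : F[X]).natTrailingDegree = 0 from natTrailingDegree_eq_zero.2 (.inr (by
      rw [coeff_zero_eq_eval_zero]; simpa using fun h4 : (4 : F) = 0 => h40 (by
        rw [← map_ofNat (C : F →+* F[X]), h4, map_zero])))] at ht
  · have h0 : (X ^ 3 + 1 : F[X]).natTrailingDegree = 0 :=
      natTrailingDegree_eq_zero.2 (.inr (by simp))
    rw [h0] at ht
    by_cases hs : e₁ * f₂ - f₁ * e₂ = 0
    · rw [hs] at hsq
      simp at hsq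
      rcases hsq with h | h
      · exact h40 h
      · exact hX3 h
    · rw [sq, natTrailingDegree_mul hs hs] at ht
      omega

theorem irreducible_sextic (h2 : (2 : F) ≠ 0) :
    Irreducible (sextic fun i : Fin 3 => (MvPolynomial.X i : MvPolynomial (Fin 3) F)) := by
  refine (sextic_monic _).irreducible_of_irreducible_map
    (MvPolynomial.eval₂Hom (Polynomial.C : F →+* F[X]) ![Polynomial.X, 0, 1]) _ ?_
  rw [map_sextic]
  convert irreducible_testSextic h2 using 1
  rw [testSextic]
  congr 1
  funext i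
  simp

/-- The sextic with generic parameter is irreducible over the field of rational functions. -/
theorem irreducible_sextic_fractionRing (h2 : (2 : F) ≠ 0) :
    Irreducible (sextic fun i : Fin 3 => algebraMap (MvPolynomial (Fin 3) F)
      (FractionRing (MvPolynomial (Fin 3) F)) (MvPolynomial.X i)) := by
  rw [← map_sextic (algebraMap (MvPolynomial (Fin 3) F) (FractionRing (MvPolynomial (Fin 3) F)))]
  exact (sextic_monic _).irreducible_iff_irreducible_map_fraction_map.1 (irreducible_sextic h2)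

end Irreducible

end FLTAgent.Lowering.P5
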