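import Fermat.Agent.Lowering.P5.Model

/-!
# Supports of the patched modules

The twisted patched module is supported on the curve, so its special fibre contains the prime
where all inertia coordinates vanish; the untwisted module has the same special fibre, so it has a
component on which they vanish identically, and this component meets the base.
-/

set_option autoImplicit false
set_option linter.style.haveILetI false

noncomputable section

open IsLocalRing

namespace FLTAgent.Lowering.P5

variable {O : Type} [CommRing O] [IsDomain O] [IsDiscreteValuationRing O]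

namespace Params

variable (P : Params O)

/-- Patched modules over the coefficient ring. -/
structure Limit where
  act : Bool → Loc O P.k P.g →ₐ[O] Matrix (Fin P.d) (Fin P.d) P.Coef
  congr : ∀ x i j, act false x i j - act true x i j ∈
    (maximalIdeal O).map (algebraMap O P.Coef)
  minor_rel : ∀ t i j, act true (minor t i j) ^ P.expo = 0
  curve_rel : ∀ t, act true (curveRel P.δ t) ^ P.expo = 0
  plain_rel : ∀ t i, act false (plainRel (P.cst t) t i) ^ P.expo = 0
  mem : ∀ e, ∀ x ∈ maximalIdeal (Loc O P.k P.g), ∃ N : ℕ, ∀ i j,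
    (act e x ^ N) i j ∈ maximalIdeal P.Coef
  ξ : Fin P.s → Loc O P.k P.g
  ξ_mem : ∀ j, ξ j ∈ maximalIdeal (Loc O P.k P.g)
  ξ_rel : ∀ e j, (act e (ξ j) - algebraMap P.Coef (Matrix (Fin P.d) (Fin P.d) P.Coef) (P.w j))
    ^ P.expo = 0
  base : ∀ x, (act false x).map MvPowerSeries.constantCoeff ∈ P.A0
  base_X : ∀ t l, (act false (Xc t l)).map MvPowerSeries.constantCoeff =
    (P.X0 t l : Matrix (Fin P.d) (Fin P.d) O)

variable {P}

namespace Limit

variable (L : P.Limit) (e : Bool)

/-- The algebra of a patched module. -/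
def alg : Subalgebra P.Coef (Matrix (Fin P.d) (Fin P.d) P.Coef) :=
  Algebra.adjoin P.Coef (Set.range (L.act e))

theorem commute_act : ∀ a ∈ Set.range (L.act e), ∀ b ∈ Set.range (L.act e), a * b = b * a := by
  rintro _ ⟨a, rfl⟩ _ ⟨b, rfl⟩
  rw [← map_mul, mul_comm, map_mul]

instance : CommRing (L.alg e) :=
  { (inferInstance : Ring (L.alg e)) with
    mul_comm := (Algebra.adjoinCommRingOfComm P.Coef (L.commute_act e)).mul_comm }

instance : Algebra P.Coef (L.alg e) := (L.alg e).algebra

instance : Module.Finite P.Coef (L.alg e) :=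
  Module.Finite.iff_fg.2 (IsNoetherian.noetherian (Subalgebra.toSubmodule (L.alg e)))

instance : IsNoetherianRing (L.alg e) := IsNoetherianRing.of_finite P.Coef _

/-- The action as a map to the algebra. -/
def toAlg : Loc O P.k P.g →+* L.alg e :=
  (L.act e).toRingHom.codRestrict (L.alg e) fun x => Algebra.subset_adjoin ⟨x, rfl⟩

@[simp]
theorem coe_toAlg (x : Loc O P.k P.g) : (L.toAlg e x : Matrix _ _ P.Coef) = L.act e x := rfl

theorem coe_algebraMap (s : P.Coef) :
    (algebraMap P.Coef (L.alg e) s : Matrix (Fin P.d) (Fin P.d) P.Coef) = algebraMap P.Coef _ s :=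
  rfl

theorem toAlg_C (a : O) :
    L.toAlg e (MvPowerSeries.C a) = algebraMap P.Coef (L.alg e) (MvPowerSeries.C a) := by
  refine Subtype.ext ?_
  rw [coe_toAlg, coe_algebraMap]
  exact ((L.act e).commutes a).trans
    (IsScalarTower.algebraMap_apply O P.Coef (Matrix (Fin P.d) (Fin P.d) P.Coef) a)

theorem eq_zero_of_smul {s : P.Coef} (hs : s ≠ 0) {a : L.alg e}
    (h : algebraMap P.Coef (L.alg e) s * a = 0) : a = 0 := by
  have : IsDomain P.Coef := NoZeroDivisors.to_isDomain _
  refine Subtype.ext (Matrix.ext fun i j => ?_)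
  have := congrArg (fun x : L.alg e => (x : Matrix (Fin P.d) (Fin P.d) P.Coef) i j) h
  simp only [MulMemClass.coe_mul, coe_algebraMap, ← Algebra.smul_def, Matrix.smul_apply,
    smul_eq_mul, ZeroMemClass.coe_zero, Matrix.zero_apply] at this
  exact (mul_eq_zero.1 this).resolve_left hs

theorem nontrivial_alg : Nontrivial (L.alg e) := by
  refine ⟨⟨0, 1, fun h => ?_⟩⟩
  have := congrArg (fun x : L.alg e =>
    (x : Matrix (Fin P.d) (Fin P.d) P.Coef) ⟨0, P.d_pos⟩ ⟨0, P.d_pos⟩) h
  simp at this

variable {e}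

theorem eq_zero_of_algebraMap_mem {Q : Ideal (L.alg e)} (hQ : Q ∈ minimalPrimes (L.alg e))
    {s : P.Coef} (hs : algebraMap P.Coef (L.alg e) s ∈ Q) : s = 0 := by
  by_contra h
  refine notMem_nonZeroDivisors_of_mem_mem_minimalPrimes (R := L.alg e) hs hQ ?_
  rw [mem_nonZeroDivisors_iff_right]
  exact fun a ha => L.eq_zero_of_smul e h (by rwa [mul_comm])

variable [IsAdicComplete (maximalIdeal O) O]

/-- A component of a patched module is finite over the local model. -/
theorem finite_component {Q : Ideal (L.alg e)} (hQ : Q ∈ minimalPrimes (L.alg e)) :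
    ((Ideal.Quotient.mk Q).comp (L.toAlg e)).Finite := by
  have : Q.IsPrime := hQ.1.1
  have : IsNoetherianRing (L.alg e ⧸ Q) := inferInstance
  set f := (Ideal.Quotient.mk Q).comp (L.toAlg e) with hf
  letI : Algebra (Loc O P.k P.g) (L.alg e ⧸ Q) := f.toAlgebra
  set h : P.Coef →+* L.alg e ⧸ Q := (Ideal.Quotient.mk Q).comp (algebraMap P.Coef (L.alg e))
  have := isAdicComplete_mvPowerSeries_of_finite (O := O) (LocVar P.k P.g)
  set M := (maximalIdeal (Loc O P.k P.g)).map f
  -- a maximal ideal containing the image of the maximal ideal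
  obtain ⟨n, hn, hnS⟩ : ∃ n : Ideal (L.alg e), n.IsPrime ∧ Q ≤ n ∧
      (maximalIdeal P.Coef).map (algebraMap P.Coef (L.alg e)) ≤ n := by
    obtain ⟨n, hle, hn, hnS⟩ := Ideal.exists_ideal_over_prime_of_isIntegral (S := L.alg e)
      (maximalIdeal P.Coef) Q (fun s hs => by
        rw [L.eq_zero_of_algebraMap_mem hQ (Ideal.mem_comap.1 hs)]; exact zero_mem _)
    exact ⟨n, hn, hle, Ideal.map_le_iff_le_comap.2 (le_of_eq hnS.symm)⟩
  have hM : M ≤ n.map (Ideal.Quotient.mk Q) := by
    rw [Ideal.map_le_iff_le_comap]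
    intro x hx
    obtain ⟨N, hN⟩ := L.mem e x hx
    have := pow_mem_map_of_entries_mem (L.alg e).val Subtype.val_injective (maximalIdeal P.Coef)
      (L.toAlg e x ^ N) (fun i j => by simpa using hN i j)
    rw [← pow_mul] at this
    exact Ideal.mem_map_of_mem _ (hn.mem_of_pow_mem _ (hnS.2 this))
  have hne : n.map (Ideal.Quotient.mk Q) ≠ ⊤ := (Ideal.isPrime_map_quotientMk_of_isPrime hnS.1).ne_top
  have : IsHausdorff ((maximalIdeal (Loc O P.k P.g)).map (algebraMap _ (L.alg e ⧸ Q))) (L.alg e ⧸ Q) :=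
    IsHausdorff.of_isDomain _ fun htop => hne (eq_top_iff.2 (htop ▸ hM))
  obtain ⟨F, hF⟩ := (inferInstance : Module.Finite P.Coef (L.alg e)).fg_top
  refine (finite_and_adjoin_eq_top (maximalIdeal (Loc O P.k P.g))
    (fun j : Fin P.s => h (MvPowerSeries.X j))
    (F := Ideal.Quotient.mk Q '' (F : Set (L.alg e))) (F.finite_toSet.image _) (fun x => ?_)
    (fun j => ?_)).1
  · obtain ⟨x, rfl⟩ := Ideal.Quotient.mk_surjective x
    have hx : x ∈ Submodule.span P.Coef (F : Set (L.alg e)) := hF ▸ Submodule.mem_top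
    obtain ⟨c, hc⟩ := Submodule.mem_span_finset'.1 hx
    refine ⟨∑ b, (MvPowerSeries.C (MvPowerSeries.constantCoeff (c b)) : Loc O P.k P.g) •
      Ideal.Quotient.mk Q (b : L.alg e), Submodule.sum_mem _ fun b _ =>
        Submodule.smul_mem _ _ (Submodule.subset_span ⟨b, b.2, rfl⟩), ?_⟩
    rw [← hc, map_sum, ← Finset.sum_sub_distrib]
    refine Submodule.sum_mem _ fun b _ => ?_
    rw [Algebra.smul_def, Algebra.smul_def, map_mul, RingHom.algebraMap_toAlgebra, hf,
      RingHom.comp_apply, L.toAlg_C, ← sub_mul, ← map_sub, ← map_sub]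
    refine Ideal.mul_mem_right _ _ ?_
    show h _ ∈ _
    rw [Set.range_comp' h, ← Ideal.map_span]
    exact Ideal.mem_map_of_mem _ (sub_C_constantCoeff_mem_span_X _)
  · obtain ⟨v, hv⟩ := P.w_dvd j
    refine ⟨2, ?_⟩
    have hw : h (P.w j) = f (L.ξ j) := by
      refine (sub_eq_zero.1 ?_).symm
      refine eq_zero_of_pow_eq_zero (n := P.expo) ?_
      simp only [h, hf, RingHom.comp_apply, ← map_sub, ← map_pow]
      rw [Ideal.Quotient.eq_zero_iff_mem]
      convert zero_mem Q
      exact Subtype.ext (by simpa [coe_algebraMap] using L.ξ_rel e j)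
    rw [← map_pow, hv, map_mul, hw]
    exact Ideal.mul_mem_right _ _ (Ideal.mem_map_of_mem _ (L.ξ_mem j))

/-- The components of the twisted module lie on the curve. -/
theorem isCurvePrime_component {Q : Ideal (L.alg true)} (hQ : Q ∈ minimalPrimes (L.alg true)) :
    IsCurvePrime P.δ (Q.comap (L.toAlg true)) := by
  have : Q.IsPrime := hQ.1.1
  have hle : curveIdeal P.δ ≤ Q.comap (L.toAlg true) := by
    rw [curveIdeal, Ideal.span_le]
    rintro _ (⟨v, rfl⟩ | ⟨t, rfl⟩)
    · refine (inferInstance : (Q.comap (L.toAlg true)).IsPrime).mem_of_pow_mem P.expo ?_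
      rw [Ideal.mem_comap, show L.toAlg true (minor v.1 v.2.1 v.2.2 ^ P.expo) = 0 from
        Subtype.ext (by simpa using L.minor_rel v.1 v.2.1 v.2.2)]
      exact zero_mem _
    · refine (inferInstance : (Q.comap (L.toAlg true)).IsPrime).mem_of_pow_mem P.expo ?_
      rw [Ideal.mem_comap, show L.toAlg true (curveRel P.δ t ^ P.expo) = 0 from
        Subtype.ext (by simpa using L.curve_rel t)]
      exact zero_mem _
  refine ⟨inferInstance, hle, fun a ha => ?_⟩
  set D := L.alg true ⧸ Q
  have : Nontrivial D := Ideal.Quotient.nontrivial_iff.2 ‹Q.IsPrime›.ne_top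
  set φ : Loc O P.k P.g ⧸ curveIdeal P.δ →+* D := Ideal.Quotient.lift (curveIdeal P.δ)
    ((Ideal.Quotient.mk Q).comp (L.toAlg true)) fun x hx => by
      exact Ideal.Quotient.eq_zero_iff_mem.2 (Ideal.mem_comap.1 (hle hx))
  have hφ : φ.Finite := RingHom.Finite.of_comp_finite (f := Ideal.Quotient.mk _) (by
    rw [Ideal.Quotient.lift_comp_mk]; exact L.finite_component hQ)
  have hq : ((Ideal.Quotient.mk (curveIdeal P.δ)).comp
      (ofBase (O := O) (k := P.k) (g := P.g)).toRingHom).Finite :=
    (finite_quotient_curveIdeal (k := P.k) (g := P.g) P.δ_mem).1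
  have hgf : ((Ideal.Quotient.mk Q).comp (algebraMap P.Coef (L.alg true))).Finite :=
    (RingHom.Finite.of_surjective _ Ideal.Quotient.mk_surjective).comp
      (RingHom.finite_algebraMap.2 inferInstance)
  have hgi : Function.Injective ((Ideal.Quotient.mk Q).comp (algebraMap P.Coef (L.alg true))) :=
    (injective_iff_map_eq_zero _).2 fun s hs =>
      L.eq_zero_of_algebraMap_mem hQ (Ideal.Quotient.eq_zero_iff_mem.1 hs)
  have e : BaseVar P.k P.g ≃ Fin P.s := Fintype.equivFinOfCardEq (by
    simp [P.s_eq, mul_comm])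
  have : IsDomain (MvPowerSeries (BaseVar P.k P.g) O) := NoZeroDivisors.to_isDomain _
  have hinj := injective_of_finite (MvPowerSeries.renameEquiv O e).toRingEquiv
    (φ.comp ((Ideal.Quotient.mk (curveIdeal P.δ)).comp ofBase.toRingHom)) (hφ.comp hq) _ hgf hgi
  refine hinj ?_
  rw [map_zero]
  exact Ideal.Quotient.eq_zero_iff_mem.2 ha

/-- A component of the untwisted module below the prime where all inertia coordinates vanish. -/
theorem exists_component_false (h2 : (2 : ResidueField O) ≠ 0) :
    ∃ Q ∈ minimalPrimes (L.alg false), ∀ t i, L.toAlg false (Xc t i) ∈ Q := by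
  obtain ⟨Q₀, hQ₀, hQ₀le⟩ := exists_isCurvePrime_le_PA (k := P.k) (g := P.g) P.δ_mem
  have : Nontrivial (L.alg true) := L.nontrivial_alg true
  obtain ⟨M, hM⟩ := Ideal.exists_maximal (L.alg true)
  obtain ⟨Qt, hQt, -⟩ := Ideal.exists_minimalPrimes_le (bot_le : ⊥ ≤ M)
  have : Qt.IsPrime := hQt.1.1
  have hQtle : Qt.comap (L.toAlg true) ≤ PA :=
    ((L.isCurvePrime_component hQt).le_of h2 P.δ_ne P.δ_mem hQ₀).trans hQ₀le
  obtain ⟨w, hw⟩ := IsDiscreteValuationRing.exists_irreducible O
  have hwm : w ∈ maximalIdeal O := hw.maximalIdeal_eq ▸ Ideal.mem_span_singleton_self w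
  -- a prime of the twisted algebra over `PA`
  set f := (Ideal.Quotient.mk Qt).comp (L.toAlg true) with hf
  letI : Algebra (Loc O P.k P.g) (L.alg true ⧸ Qt) := f.toAlgebra
  have : Algebra.IsIntegral (Loc O P.k P.g) (L.alg true ⧸ Qt) :=
    ⟨RingHom.Finite.to_isIntegral (L.finite_component hQt)⟩
  obtain ⟨m, -, hm, hmPA⟩ := Ideal.exists_ideal_over_prime_of_isIntegral (S := L.alg true ⧸ Qt)
    (PA : Ideal (Loc O P.k P.g)) ⊥ (fun x hx => hQtle (by
      rw [Ideal.mem_comap, Ideal.mem_bot] at hx
      exact Ideal.mem_comap.2 (Ideal.Quotient.eq_zero_iff_mem.1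
        (show Ideal.Quotient.mk Qt (L.toAlg true x) = 0 from hx))))
  -- the kernel of the untwisted action lies in `PA`
  have hker : RingHom.ker (L.toAlg false) ≤ PA := by
    intro x hx
    have h0 : L.act false x = 0 := by rw [← coe_toAlg, RingHom.mem_ker.1 hx]; rfl
    have hent : ∀ i j, (L.alg true).val (L.toAlg true x) i j ∈
        Ideal.span {(MvPowerSeries.C w : P.Coef)} := fun i j => by
      have h := L.congr x i j
      rw [h0, Matrix.zero_apply, zero_sub, neg_mem_iff, hw.maximalIdeal_eq, Ideal.map_span,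
        Set.image_singleton] at h
      exact h
    have hp := pow_mem_map_of_entries_mem (L.alg true).val Subtype.val_injective _ _ hent
    rw [Ideal.map_span, Set.image_singleton, ← L.toAlg_C, Ideal.mem_span_singleton] at hp
    obtain ⟨c, hc⟩ := hp
    rw [← hmPA, Ideal.mem_comap, RingHom.algebraMap_toAlgebra]
    refine hm.mem_of_pow_mem P.d ?_
    rw [hf, RingHom.comp_apply, ← map_pow, hc, map_mul]
    refine Ideal.mul_mem_right _ _ ?_
    have := C_mem_PA (k := P.k) (g := P.g) hwm
    rwa [← hmPA, Ideal.mem_comap, RingHom.algebraMap_toAlgebra, hf, RingHom.comp_apply] at this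
  obtain ⟨q, hq, hqle⟩ := Ideal.exists_minimalPrimes_le hker
  obtain ⟨Q, hQ, hQq⟩ := Ideal.exists_minimalPrimes_comap_eq (L.toAlg false) q
    (I := (⊥ : Ideal (L.alg false))) (by rwa [← RingHom.ker_eq_comap_bot])
  refine ⟨Q, hQ, fun t i => ?_⟩
  have : Q.IsPrime := hQ.1.1
  have hrel : plainRel (P.cst t) t i ∈ q := by
    rw [← hQq]
    refine (inferInstance : (Q.comap (L.toAlg false)).IsPrime).mem_of_pow_mem P.expo ?_
    rw [Ideal.mem_comap, show L.toAlg false (plainRel (P.cst t) t i ^ P.expo) = 0 from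
      Subtype.ext (by simpa using L.plain_rel t i)]
    exact zero_mem _
  rcases hq.1.1.mem_or_mem hrel with h | h
  · exact absurd (hqle h) (qf_Yc_sub_notMem_PA t (P.cst_mem t))
  · rwa [← hQq] at h

include L in
/-- The point of the base algebra. -/
theorem conclusion (h2 : (2 : ResidueField O) ≠ 0) : P.Conclusion := by
  obtain ⟨Q, hQ, hX⟩ := L.exists_component_false h2
  have : Q.IsPrime := hQ.1.1
  have : IsDomain P.Coef := NoZeroDivisors.to_isDomain _
  let zc : P.Coef →+* O := MvPowerSeries.constantCoeff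
  have hzp : (RingHom.ker zc).IsPrime := RingHom.ker_isPrime zc
  obtain ⟨p, hQp, hp, hpz⟩ := Ideal.exists_ideal_over_prime_of_isIntegral (S := L.alg false)
    (RingHom.ker zc) Q (fun s hs => by
      rw [L.eq_zero_of_algebraMap_mem hQ (Ideal.mem_comap.1 hs)]; exact zero_mem _)
  -- the map to the base algebra
  let entry : Matrix (Fin P.d) (Fin P.d) P.Coef →+* Matrix (Fin P.d) (Fin P.d) O := zc.mapMatrix
  have hmem : ∀ a : L.alg false, entry a ∈ P.A0 := by
    rintro ⟨a, ha⟩
    induction ha using Algebra.adjoin_induction with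
    | mem x hx => obtain ⟨x, rfl⟩ := hx; exact L.base x
    | algebraMap s =>
      have : entry (algebraMap P.Coef (Matrix (Fin P.d) (Fin P.d) P.Coef) s) =
          algebraMap O (Matrix (Fin P.d) (Fin P.d) O) (zc s) := by
        ext i j
        simp only [entry, RingHom.mapMatrix_apply, Matrix.map_apply,
          Matrix.algebraMap_matrix_apply]
        split_ifs <;> simp
      rw [this]; exact Subalgebra.algebraMap_mem _ _
    | add x y _ _ hx hy => rw [map_add]; exact add_mem hx hy
    | mul x y _ _ hx hy => rw [map_mul]; exact mul_mem hx hy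
  let θ : L.alg false →+* P.A0 :=
    (entry.comp (L.alg false).val.toRingHom).codRestrict P.A0 hmem
  letI : CommRing P.A0 :=
    { (inferInstance : Ring P.A0) with
      mul_comm := fun a b => Subtype.ext (P.A0_comm a a.2 b b.2) }
  have hθker : RingHom.ker θ ≤ p := by
    intro a ha
    have hent : ∀ i j, (L.alg false).val a i j ∈ RingHom.ker zc := fun i j => by
      have := congrArg (fun x : P.A0 => (x : Matrix (Fin P.d) (Fin P.d) O) i j)
        (RingHom.mem_ker.1 ha)
      exact this
    exact hp.mem_of_pow_mem P.d (Ideal.map_le_iff_le_comap.2 hpz.ge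
      (pow_mem_map_of_entries_mem (L.alg false).val Subtype.val_injective _ a hent))
  have hθC : ∀ a : O, θ (algebraMap P.Coef (L.alg false) (MvPowerSeries.C a)) =
      algebraMap O P.A0 a := fun a => Subtype.ext (by
    rw [← L.toAlg_C]
    show entry (L.act false (MvPowerSeries.C a)) = algebraMap O (Matrix (Fin P.d) (Fin P.d) O) a
    rw [show L.act false (MvPowerSeries.C a) = algebraMap O _ a from (L.act false).commutes a]
    ext i j
    simp only [entry, RingHom.mapMatrix_apply, Matrix.map_apply, Matrix.algebraMap_matrix_apply]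
    split_ifs
    · exact MvPowerSeries.constantCoeff_C a
    · exact map_zero _)
  letI : Algebra O P.A0 := P.A0.algebra
  have : Module.Finite O P.A0 :=
    Module.Finite.iff_fg.2 (IsNoetherian.noetherian (Subalgebra.toSubmodule P.A0))
  have hθ : θ.Finite := RingHom.Finite.of_comp_finite
    (f := (algebraMap P.Coef (L.alg false)).comp MvPowerSeries.C) (by
      rw [show θ.comp ((algebraMap P.Coef (L.alg false)).comp MvPowerSeries.C) = algebraMap O P.A0
        from RingHom.ext hθC]
      exact RingHom.finite_algebraMap.2 inferInstance)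
  letI : Algebra (L.alg false) P.A0 := θ.toAlgebra
  have : Algebra.IsIntegral (L.alg false) P.A0 := ⟨RingHom.Finite.to_isIntegral hθ⟩
  obtain ⟨p₀, -, hp₀, hp₀p⟩ := Ideal.exists_ideal_over_prime_of_isIntegral (S := P.A0) p ⊥
    (fun a ha => hθker ha)
  let Ω := FractionRing (P.A0 ⧸ p₀)
  let f₀ : P.A0 →+* Ω := (algebraMap (P.A0 ⧸ p₀) Ω).comp (Ideal.Quotient.mk p₀)
  have hf₀ : ∀ a, f₀ a = 0 ↔ a ∈ p₀ := fun a => by
    rw [RingHom.comp_apply, (IsFractionRing.injective (P.A0 ⧸ p₀) Ω).eq_iff' (map_zero _),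
      Ideal.Quotient.eq_zero_iff_mem]
  letI : Algebra O Ω := (f₀.comp (algebraMap O P.A0)).toAlgebra
  refine ⟨Ω, inferInstance, inferInstance, ⟨f₀, fun a => rfl⟩, ?_, fun t i => ?_⟩
  · refine (injective_iff_map_eq_zero (algebraMap O Ω)).2 fun a ha => ?_
    have h1 : θ (algebraMap P.Coef (L.alg false) (MvPowerSeries.C a)) ∈ p₀ := by
      rw [hθC]; exact (hf₀ _).1 ha
    have h2 : MvPowerSeries.C a ∈ RingHom.ker zc := by
      rw [← hpz, Ideal.mem_comap, ← hp₀p]
      exact h1
    simpa [zc] using h2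
  · refine (hf₀ _).2 ?_
    rw [show P.X0 t i = θ (L.toAlg false (Xc t i)) from Subtype.ext (L.base_X t i).symm]
    have : L.toAlg false (Xc t i) ∈ p := hQp (hX t i)
    rw [← hp₀p] at this
    exact this

end Limit

end Params

end FLTAgent.Lowering.P5
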