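import Fermat.Agent.Lowering.P5.Sextic

/-!
# Independence of the roots of the sextics

If the parameters `u t` of several sextics reduce to independent indeterminates over a residue
field, then the fields generated over the base by one root of each sextic are all isomorphic.
-/

set_option autoImplicit false
set_option linter.style.haveILetI false
set_option linter.deprecated false

noncomputable section

open Polynomial

namespace FLTAgent.Lowering.P5

universe v

/-- A ring with an element `w` and a map to polynomials over a field with kernel `(w)`. -/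
structure Reduction (B : Type v) [CommRing B] (w : B) (L : Type v) [Field L] (σ : Type) where
  red : B →+* MvPolynomial σ L
  ker : ∀ b, red b = 0 ↔ w ∣ b
  sep : ∀ b, (∀ n : ℕ, w ^ n ∣ b) → b = 0
  nzd : ∀ b, w * b = 0 → b = 0

namespace Reduction

variable {B : Type v} [CommRing B] {w : B} {L : Type v} [Field L] {σ : Type}
  (T : Reduction B w L σ)

include T in
theorem nzd_pow (n : ℕ) (b : B) (h : w ^ n * b = 0) : b = 0 := by
  induction n with
  | zero => simpa using h
  | succ n ih => exact ih (T.nzd _ (by rw [← mul_assoc, ← pow_succ', h]))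

include T in
theorem exists_eq_pow_mul {b : B} (hb : b ≠ 0) : ∃ (n : ℕ) (c : B), b = w ^ n * c ∧ T.red c ≠ 0 := by
  obtain ⟨n, hn⟩ : ∃ n : ℕ, ¬ w ^ n ∣ b := by
    by_contra h; push Not at h; exact hb (T.sep b h)
  induction n generalizing b with
  | zero => exact absurd (by simp) hn
  | succ n ih =>
    by_cases h : T.red b = 0
    · obtain ⟨c, rfl⟩ := (T.ker b).1 h
      obtain ⟨m, e, rfl, he⟩ := ih (b := c) (fun h0 => hb (by rw [h0, mul_zero]))
        (fun hd => hn (by rw [pow_succ']; exact mul_dvd_mul_left _ hd))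
      exact ⟨m + 1, e, by rw [pow_succ', mul_assoc], he⟩
    · exact ⟨0, b, by simp, h⟩

include T in
theorem isDomain : IsDomain B := by
  have : Nontrivial B := T.red.domain_nontrivial
  have : NoZeroDivisors B := ⟨fun {x y} hxy => by
    by_contra hne
    push Not at hne
    obtain ⟨a, x', rfl, hx⟩ := T.exists_eq_pow_mul hne.1
    obtain ⟨b, y', rfl, hy⟩ := T.exists_eq_pow_mul hne.2
    have h0 : x' * y' = 0 := T.nzd_pow (a + b) _ (by rw [← hxy]; ring)
    exact mul_ne_zero hx hy (by rw [← map_mul, h0, map_zero])⟩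
  exact NoZeroDivisors.to_isDomain B

end Reduction

section Step

variable (L : Type v) [Field L]

/-- The field generated by a generic parameter. -/
abbrev Gen : Type v := FractionRing (MvPolynomial (Fin 3) L)

/-- The generic parameter. -/
def genU : Fin 3 → Gen L :=
  fun i => algebraMap (MvPolynomial (Fin 3) L) (Gen L) (MvPolynomial.X i)

/-- The field generated by a root of the generic sextic. -/
abbrev Next : Type v := AdjoinRoot (sextic (genU L))

variable {L} {k : ℕ}

/-- The first parameter becomes a constant. -/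
def splitFirst : MvPolynomial (Fin (k + 1) × Fin 3) L →+* MvPolynomial (Fin k × Fin 3) (Gen L) :=
  MvPolynomial.eval₂Hom (MvPolynomial.C.comp (algebraMap L (Gen L)))
    (fun x => Fin.cases (MvPolynomial.C (genU L x.2)) (fun t => MvPolynomial.X (t, x.2)) x.1)

@[simp]
theorem splitFirst_X_zero (i : Fin 3) :
    splitFirst (L := L) (k := k) (MvPolynomial.X (0, i)) = MvPolynomial.C (genU L i) := by
  simp [splitFirst]

@[simp]
theorem splitFirst_X_succ (t : Fin k) (i : Fin 3) :
    splitFirst (L := L) (MvPolynomial.X (t.succ, i)) = MvPolynomial.X (t, i) := by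
  simp [splitFirst]

theorem splitFirst_injective : Function.Injective (splitFirst (L := L) (k := k)) := by
  let e : Fin (k + 1) × Fin 3 ≃ (Fin k × Fin 3) ⊕ Fin 3 :=
    { toFun := fun x => Fin.cases (Sum.inr x.2) (fun t => Sum.inl (t, x.2)) x.1
      invFun := Sum.elim (fun x => (x.1.succ, x.2)) (fun i => (0, i))
      left_inv := fun ⟨t, i⟩ => by induction t using Fin.cases <;> simp
      right_inv := fun x => by rcases x with ⟨t, i⟩ | i <;> simp }
  have h : (splitFirst (L := L) (k := k)) =
      (MvPolynomial.map (algebraMap (MvPolynomial (Fin 3) L) (Gen L))).comp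
        (((MvPolynomial.sumRingEquiv L (Fin k × Fin 3) (Fin 3)).toRingHom).comp
          (MvPolynomial.rename e).toRingHom) := by
    refine MvPolynomial.ringHom_ext (fun a => ?_) (fun ⟨t, i⟩ => ?_)
    · simp [splitFirst, MvPolynomial.algebraMap_eq,
        IsScalarTower.algebraMap_apply L (MvPolynomial (Fin 3) L) (Gen L)]
    · induction t using Fin.cases <;> simp [splitFirst, genU, e]
  rw [h]
  refine (MvPolynomial.map_injective _ (IsFractionRing.injective _ _)).comp ?_
  exact (RingEquiv.injective (MvPolynomial.sumRingEquiv L (Fin k × Fin 3) (Fin 3))).comp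
    (MvPolynomial.rename_injective _ e.injective)

variable {B : Type v} [CommRing B] {w : B} (T : Reduction B w L (Fin (k + 1) × Fin 3))
  {u : Fin 3 → B} (hu : ∀ i, T.red (u i) = MvPolynomial.X (0, i))

/-- The reduction after adjoining a root of the first sextic. -/
def stepRed : AdjoinRoot (sextic u) →+* MvPolynomial (Fin k × Fin 3) (Next L) :=
  AdjoinRoot.lift ((MvPolynomial.map (algebraMap (Gen L) (Next L))).comp (splitFirst.comp T.red))
    (MvPolynomial.C (AdjoinRoot.root (sextic (genU L)))) (by
      rw [eval₂_sextic, show (fun i => ((MvPolynomial.map (algebraMap (Gen L) (Next L))).comp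
          (splitFirst.comp T.red)) (u i)) = fun i => MvPolynomial.C
            (AdjoinRoot.of (sextic (genU L)) (genU L i)) from funext fun i => by
          simp [hu, AdjoinRoot.algebraMap_eq]]
      have h := AdjoinRoot.eval₂_root (sextic (genU L))
      rw [eval₂_sextic] at h
      rw [← map_adjJ (MvPolynomial.C (σ := Fin k × Fin 3)), ← map_qf, ← map_pow, ← map_sub, h,
        map_zero])

theorem stepRed_of (b : B) : stepRed T hu (AdjoinRoot.of _ b) =
    MvPolynomial.map (algebraMap (Gen L) (Next L)) (splitFirst (T.red b)) := by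
  simp [stepRed, AdjoinRoot.lift_of]

theorem natDegree_sextic {A : Type*} [CommRing A] [Nontrivial A] (v : Fin 3 → A) :
    (sextic v).natDegree = 6 := by
  rw [sextic, natDegree_sub_eq_left_of_natDegree_lt]
  · simp
  · rw [natDegree_X_pow]
    refine lt_of_le_of_lt (b := 4) ?_ (by norm_num)
    simp only [qf, adjJ, Matrix.cons_val_zero, Matrix.cons_val_one, Matrix.cons_val]
    compute_degree

theorem dvd_mk_iff [Nontrivial B] (f : B[X]) (x : B) (hf : f.degree < (sextic u).degree) :
    AdjoinRoot.of (sextic u) x ∣ AdjoinRoot.mk (sextic u) f ↔ ∀ i, x ∣ f.coeff i := by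
  constructor
  · rintro ⟨g, hg⟩ i
    obtain ⟨g', rfl⟩ := AdjoinRoot.mk_surjective g
    refine ⟨(g' %ₘ sextic u).coeff i, ?_⟩
    have h1 : AdjoinRoot.mk (sextic u) f = AdjoinRoot.mk (sextic u) (C x * g') := by
      rw [hg, map_mul, AdjoinRoot.mk_C]
    have h2 := congrArg (AdjoinRoot.modByMonicHom (sextic_monic u)) h1
    rw [AdjoinRoot.modByMonicHom_mk, AdjoinRoot.modByMonicHom_mk,
      (modByMonic_eq_self_iff (sextic_monic u)).2 hf, ← smul_eq_C_mul, smul_modByMonic] at h2
    rw [h2, coeff_smul, smul_eq_mul]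
  · intro h
    choose g hg using h
    rw [← AdjoinRoot.mk_C]
    refine map_dvd _ ((C_dvd_iff_dvd_coeff _ _).2 fun i => ⟨g i, hg i⟩)

include hu in
/-- The reduction of the ring with a root of the first sextic adjoined. -/
theorem exists_step [Fact (Irreducible (sextic (genU L)))] (hw : T.red w = 0) :
    ∃ T' : Reduction (AdjoinRoot (sextic u)) (AdjoinRoot.of (sextic u) w) (Next L) (Fin k × Fin 3),
      ∀ b, T'.red (AdjoinRoot.of _ b) =
        MvPolynomial.map (algebraMap (Gen L) (Next L)) (splitFirst (T.red b)) := by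
  have : IsDomain B := T.isDomain
  have hgen : (sextic (genU L)).Monic := sextic_monic _
  have hrep : ∀ b : AdjoinRoot (sextic u), ∃ f : B[X],
      f.degree < (sextic u).degree ∧ AdjoinRoot.mk _ f = b := by
    intro b
    obtain ⟨f, rfl⟩ := AdjoinRoot.mk_surjective b
    refine ⟨f %ₘ sextic u, degree_modByMonic_lt _ (sextic_monic u), ?_⟩
    have := AdjoinRoot.mk_leftInverse (sextic_monic u) (AdjoinRoot.mk _ f)
    rwa [AdjoinRoot.modByMonicHom_mk] at this
  refine ⟨⟨stepRed T hu, fun b => ?_, fun b hb => ?_, fun b hb => ?_⟩, fun b => stepRed_of T hu b⟩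
  · obtain ⟨f, hf, rfl⟩ := hrep b
    have hnd : f.natDegree < 6 := by
      by_cases h0 : f = 0
      · simp [h0]
      · have := natDegree_lt_natDegree h0 hf
        rwa [natDegree_sextic] at this
    rw [dvd_mk_iff f w hf]
    constructor
    · intro h0 i
      rw [stepRed, AdjoinRoot.lift_mk, eval₂_eq_sum_range' _ hnd] at h0
      by_cases hi : i < 6
      swap
      · rw [coeff_eq_zero_of_natDegree_lt (by omega)]; exact dvd_zero _
      rw [← T.ker, ← splitFirst_injective.eq_iff' (map_zero _)]
      ext e
      rw [MvPolynomial.coeff_zero]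
      have he := congrArg (MvPolynomial.coeff e) h0
      rw [MvPolynomial.coeff_sum, MvPolynomial.coeff_zero] at he
      have hterm : ∀ (j : ℕ) (P : MvPolynomial (Fin k × Fin 3) (Gen L)),
          MvPolynomial.coeff e (MvPolynomial.map (algebraMap (Gen L) (Next L)) P *
            MvPolynomial.C (AdjoinRoot.root (sextic (genU L))) ^ j) =
          algebraMap (Gen L) (Next L) (MvPolynomial.coeff e P) *
            AdjoinRoot.root (sextic (genU L)) ^ j := by
        intro j P
        rw [← map_pow, mul_comm, MvPolynomial.coeff_C_mul, MvPolynomial.coeff_map, mul_comm]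
      simp only [RingHom.coe_comp, Function.comp_apply, hterm] at he
      set c : ℕ → Gen L := fun j => MvPolynomial.coeff e (splitFirst (T.red (f.coeff j)))
      set g : (Gen L)[X] := ∑ j ∈ Finset.range 6, C (c j) * X ^ j with hg
      have hg0 : AdjoinRoot.mk (sextic (genU L)) g = 0 := by
        simpa [hg, c, map_sum, AdjoinRoot.algebraMap_eq] using he
      have hgd : g.degree < (sextic (genU L)).degree := by
        rw [degree_eq_natDegree hgen.ne_zero, natDegree_sextic]
        exact degree_sum_fin_lt (fun j : Fin 6 => c j) |>.trans_le' (le_of_eq (by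
          rw [hg, Finset.sum_range]))
      have hgz : g = 0 := by
        by_contra hne
        exact AdjoinRoot.mk_ne_zero_of_degree_lt hgen hne hgd hg0
      have := congrArg (fun q : (Gen L)[X] => q.coeff i) hgz
      simpa [hg, coeff_C_mul, coeff_X_pow, Finset.sum_ite_eq, hi] using this
    · intro h
      rw [stepRed, AdjoinRoot.lift_mk, eval₂_eq_sum_range]
      refine Finset.sum_eq_zero fun j _ => ?_
      obtain ⟨g, hg⟩ := h j
      simp [hg, hw]
  · obtain ⟨f, hf, rfl⟩ := hrep b
    have : f = 0 := by
      ext i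
      rw [coeff_zero]
      exact T.sep _ fun n => (dvd_mk_iff f _ hf).1 (by rw [map_pow]; exact hb n) i
    rw [this, map_zero]
  · obtain ⟨f, hf, rfl⟩ := hrep b
    rw [← AdjoinRoot.mk_C, ← map_mul] at hb
    have h2 := congrArg (AdjoinRoot.modByMonicHom (sextic_monic u)) hb
    rw [AdjoinRoot.modByMonicHom_mk, map_zero, ← smul_eq_C_mul, smul_modByMonic,
      (modByMonic_eq_self_iff (sextic_monic u)).2 hf] at h2
    have : f = 0 := by
      ext i
      rw [coeff_zero]
      refine T.nzd _ ?_
      have := congrArg (fun q : B[X] => q.coeff i) h2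
      simpa using this
    rw [this, map_zero]

end Step

theorem irreducible_map_of_prime {B : Type*} [CommRing B] [IsDomain B] {P : B[X]} (hP : P.Monic)
    (hp : Prime P) : Irreducible (P.map (algebraMap B (FractionRing B))) := by
  set f := algebraMap B (FractionRing B)
  have hf : Function.Injective f := IsFractionRing.injective _ _
  have hdeg : (P.map f).natDegree = P.natDegree := natDegree_map_eq_of_injective hf P
  have hpos : 0 < P.natDegree := by
    rcases Nat.eq_zero_or_pos P.natDegree with h | h
    · exact absurd (hP.natDegree_eq_zero.1 h ▸ isUnit_one) hp.not_isUnit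
    · exact h
  refine ⟨fun hu => ?_, fun g₁ g₂ hg => ?_⟩
  · have := natDegree_eq_zero_of_isUnit hu; omega
  have hne : P.map f ≠ 0 := (hP.map f).ne_zero
  have hg1 : g₁ ≠ 0 := fun h => hne (by rw [hg, h, zero_mul])
  have hg2 : g₂ ≠ 0 := fun h => hne (by rw [hg, h, mul_zero])
  obtain ⟨b₁, hb₁⟩ := IsLocalization.integerNormalization_map_to_map (nonZeroDivisors B) g₁
  obtain ⟨b₂, hb₂⟩ := IsLocalization.integerNormalization_map_to_map (nonZeroDivisors B) g₂
  set G₁ := IsLocalization.integerNormalization (nonZeroDivisors B) g₁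
  set G₂ := IsLocalization.integerNormalization (nonZeroDivisors B) g₂
  have heq : G₁ * G₂ = C ((b₁ : B) * b₂) * P := by
    refine map_injective f hf ?_
    rw [Polynomial.map_mul, Polynomial.map_mul, Polynomial.map_C, hb₁, hb₂, hg, map_mul]
    simp only [Algebra.smul_def, Polynomial.algebraMap_eq, map_mul,
      IsScalarTower.algebraMap_apply B (FractionRing B) (FractionRing B)[X]]
    ring
  have key : ∀ (g : (FractionRing B)[X]) (b : nonZeroDivisors B) (G : B[X]), g ≠ 0 →
      G.map f = (b : B) • g → P ∣ G → P.natDegree ≤ g.natDegree := by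
    intro g b G hg0 hG hd
    have hb : (b : B) • g ≠ 0 := by
      rw [Algebra.smul_def]
      refine mul_ne_zero ?_ hg0
      rw [IsScalarTower.algebraMap_apply B (FractionRing B) (FractionRing B)[X],
        Polynomial.algebraMap_eq, C_ne_zero]
      exact IsFractionRing.to_map_ne_zero_of_mem_nonZeroDivisors b.2
    have hG0 : G ≠ 0 := fun h => hb (by rw [← hG, h, Polynomial.map_zero])
    have := natDegree_le_of_dvd hd hG0
    rw [← natDegree_map_eq_of_injective hf G, hG] at this
    exact this.trans (natDegree_smul_le _ _)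
  have hsum : g₁.natDegree + g₂.natDegree = P.natDegree := by
    rw [← natDegree_mul hg1 hg2, ← hg, hdeg]
  rcases hp.dvd_or_dvd ⟨C ((b₁ : B) * b₂), by rw [heq, mul_comm]⟩ with h | h
  · refine Or.inr (isUnit_iff_degree_eq_zero.2 ?_)
    have := key g₁ b₁ G₁ hg1 hb₁ h
    rw [degree_eq_natDegree hg2]
    exact_mod_cast (by omega : g₂.natDegree = 0)
  · refine Or.inl (isUnit_iff_degree_eq_zero.2 ?_)
    have := key g₂ b₂ G₂ hg2 hb₂ h
    rw [degree_eq_natDegree hg1]
    exact_mod_cast (by omega : g₁.natDegree = 0)

/-- Roots of sextics with independent parameters satisfy the same polynomial relations over the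
base in every field. -/
theorem eval₂_eq_zero_of_reduction :
    ∀ (k : ℕ) {B : Type v} [CommRing B] {w : B} {L : Type v} [Field L]
      (T : Reduction B w L (Fin k × Fin 3)) (_ : (2 : L) ≠ 0) (uB : Fin k → Fin 3 → B)
      (_ : ∀ t i, T.red (uB t i) = MvPolynomial.X (t, i))
      {K : Type v} [Field K] (i₀ : K →+* FractionRing B) (uK : Fin k → Fin 3 → K)
      (_ : ∀ t i, i₀ (uK t i) = algebraMap B (FractionRing B) (uB t i))
      (G : MvPolynomial (Fin k) K)
      {Ω : Type v} [Field Ω] (ψ : K →+* Ω) (c : Fin k → Ω)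
      (_ : ∀ t, (sextic (uK t)).eval₂ ψ (c t) = 0)
      {Ω' : Type v} [Field Ω'] (ψ' : K →+* Ω') (c' : Fin k → Ω')
      (_ : ∀ t, (sextic (uK t)).eval₂ ψ' (c' t) = 0)
      (_ : MvPolynomial.eval₂ ψ c G = 0), MvPolynomial.eval₂ ψ' c' G = 0 := by
  intro k
  induction k with
  | zero =>
    intro B _ w L _ T _ uB _ K _ i₀ uK _ G Ω _ ψ c _ Ω' _ ψ' c' _ h
    obtain ⟨a, rfl⟩ := MvPolynomial.C_surjective (Fin 0) G
    rw [MvPolynomial.eval₂_C] at h ⊢
    rw [(map_eq_zero ψ).1 h, map_zero]
  | succ k ih =>
    intro B _ w L _ T h2 uB huB K _ i₀ uK huK G Ω _ ψ c hc Ω' _ ψ' c' hc' h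
    have : IsDomain B := T.isDomain
    have hw : T.red w = 0 := (T.ker w).2 dvd_rfl
    have h2' : (2 : Gen L) ≠ 0 := by
      rw [← map_ofNat (algebraMap L (Gen L))]; exact fun e => h2 ((map_eq_zero _).1 e)
    haveI : Fact (Irreducible (sextic (genU L))) := ⟨irreducible_sextic_fractionRing h2⟩
    obtain ⟨T', hT'⟩ := exists_step T (huB 0) hw
    haveI : IsDomain (AdjoinRoot (sextic (uB 0))) := T'.isDomain
    -- irreducibility over `K`
    have hprime : Prime (sextic (uB 0)) := by
      rw [← Ideal.span_singleton_prime (sextic_monic _).ne_zero]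
      exact (Ideal.Quotient.isDomain_iff_prime _).1 ‹IsDomain (AdjoinRoot (sextic (uB 0)))›
    have hmap : (sextic (uK 0)).map i₀ =
        (sextic (uB 0)).map (algebraMap B (FractionRing B)) := by
      simp only [map_sextic, huK]
    have hirrK : Irreducible (sextic (uK 0)) :=
      (sextic_monic _).irreducible_of_irreducible_map i₀ _
        (hmap ▸ irreducible_map_of_prime (sextic_monic _) hprime)
    haveI : Fact (Irreducible (sextic (uK 0))) := ⟨hirrK⟩
    -- the next stage
    have hinj : Function.Injective ((algebraMap (AdjoinRoot (sextic (uB 0)))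
        (FractionRing (AdjoinRoot (sextic (uB 0))))).comp (AdjoinRoot.of _)) :=
      (IsFractionRing.injective (AdjoinRoot (sextic (uB 0))) _).comp (AdjoinRoot.of.injective_of_degree_ne_zero (by
        rw [degree_eq_natDegree (sextic_monic _).ne_zero, natDegree_sextic]; norm_num))
    let e : FractionRing B →+* FractionRing (AdjoinRoot (sextic (uB 0))) :=
      IsFractionRing.lift (K := FractionRing B) hinj
    have hroot : (sextic (uK 0)).eval₂ (e.comp i₀) (algebraMap (AdjoinRoot (sextic (uB 0)))
        (FractionRing (AdjoinRoot (sextic (uB 0)))) (AdjoinRoot.root _)) = 0 := by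
      rw [← eval₂_map, hmap, eval₂_map]
      rw [show e.comp (algebraMap B (FractionRing B)) = (algebraMap (AdjoinRoot (sextic (uB 0)))
          (FractionRing (AdjoinRoot (sextic (uB 0))))).comp (AdjoinRoot.of (sextic (uB 0))) from
        RingHom.ext fun b => by simp [e, IsFractionRing.lift_algebraMap]]
      rw [← hom_eval₂, AdjoinRoot.eval₂_root, map_zero]
    let i₁ := AdjoinRoot.lift (e.comp i₀) _ hroot
    let uK' : Fin k → Fin 3 → AdjoinRoot (sextic (uK 0)) :=
      fun t i => AdjoinRoot.of _ (uK t.succ i)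
    let G' : MvPolynomial (Fin k) (AdjoinRoot (sextic (uK 0))) :=
      MvPolynomial.eval₂ (MvPolynomial.C.comp (AdjoinRoot.of _))
        (Fin.cases (MvPolynomial.C (AdjoinRoot.root _)) MvPolynomial.X) G
    have hG : ∀ {Z : Type v} [Field Z] (φ : K →+* Z) (d : Fin (k + 1) → Z)
        (hd : (sextic (uK 0)).eval₂ φ (d 0) = 0),
        MvPolynomial.eval₂ (AdjoinRoot.lift φ (d 0) hd) (fun t => d t.succ) G' =
          MvPolynomial.eval₂ φ d G := by
      intro Z _ φ d hd
      rw [← MvPolynomial.coe_eval₂Hom, ← MvPolynomial.coe_eval₂Hom]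
      show ((MvPolynomial.eval₂Hom (AdjoinRoot.lift φ (d 0) hd) fun t => d t.succ).comp
        (MvPolynomial.eval₂Hom (MvPolynomial.C.comp (AdjoinRoot.of (sextic (uK 0))))
          (Fin.cases (MvPolynomial.C (AdjoinRoot.root _)) MvPolynomial.X))) G = _
      congr 1
      refine MvPolynomial.ringHom_ext (fun a => by simp) (fun t => ?_)
      induction t using Fin.cases <;> simp
    have hsx : ∀ {Z : Type v} [Field Z] (φ : K →+* Z) (d : Fin (k + 1) → Z)
        (hd : ∀ t, (sextic (uK t)).eval₂ φ (d t) = 0) (t : Fin k),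
        (sextic (uK' t)).eval₂ (AdjoinRoot.lift φ (d 0) (hd 0)) (d t.succ) = 0 := by
      intro Z _ φ d hd t
      have e : sextic (uK' t) = (sextic (uK t.succ)).map (AdjoinRoot.of _) :=
        (map_sextic _ _).symm
      rw [e, eval₂_map, show (AdjoinRoot.lift φ (d 0) (hd 0)).comp
        (AdjoinRoot.of (sextic (uK 0))) = φ from RingHom.ext fun a => AdjoinRoot.lift_of (hd 0)]
      exact hd t.succ
    rw [← hG ψ c (hc 0)] at h
    rw [← hG ψ' c' (hc' 0)]
    refine ih T' ?_ (fun t i => AdjoinRoot.of _ (uB t.succ i)) (fun t i => ?_) i₁ uK'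
      (fun t i => ?_) G' _ _ (hsx ψ c hc) _ _ (hsx ψ' c' hc') h
    · rw [← map_ofNat (algebraMap (Gen L) (Next L))]
      exact fun e => h2' ((map_eq_zero _).1 e)
    · rw [hT', huB, splitFirst_X_succ, MvPolynomial.map_X]
    · simp [i₁, uK', e, huK, IsFractionRing.lift_algebraMap]

end FLTAgent.Lowering.P5
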